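import Fermat.Agent.RT.Num.Vec

/-!
# Numerical assembly: generation of the eigenspaces at the level `N_Σ` (team RT, helper41)

* `CEig j a S M ε`: symbols of level `M`, sign `ε` over a field `K` with `T_ℓ = j(a_ℓ)` for `ℓ ∉ S`;
* `PTData`: what is needed from the theory of newforms at the level `N` = conductor;
* `exists_L`: the common kernel of the `U_q`, `q ∈ Q`, on `CEig (N ∏ q²)` is the image of `CEig N`;
* `heckeU_eq_zero_of_nil`, `heckeU_eq_of_nil`: topologically nilpotent implies zero.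
-/

set_option autoImplicit false
set_option linter.unusedSectionVars false

open Matrix Matrix.SpecialLinearGroup CongruenceSubgroup IsLocalRing
open scoped MatrixGroups OnePoint

noncomputable section

namespace Fermat.Agent.RT.Num

open Fermat.Agent.LR Fermat.Agent.LR.PS Fermat.Agent.RT.Form

section inj

variable {R : Type*} [CommRing R]

/-- If `z + w|V_q = 0` with `z, w` of level `M` prime to `q`, then `T_q² = (q+1)²` on `z`. -/
theorem heckeT_sq_of_add_degen_eq_zero {M q : ℕ} (hq : q.Prime) (hqM : ¬ q ∣ M) {z w : Pairs R}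
    (hz : z ∈ MS (Gamma0 M) R) (hw : w ∈ MS (Gamma0 M) R) (h : z + degen q w = 0) :
    heckeT q (heckeT q z) = ((q : R) + 1) ^ 2 • z ∧
      heckeT q (heckeT q w) = ((q : R) + 1) ^ 2 • w := by
  have hq0 := hq.ne_zero
  have hTz := TInv_of_mem hz
  have hTw := TInv_of_mem hw
  have hcop : Nat.Coprime M q := ((Nat.Prime.coprime_iff_not_dvd hq).mpr hqM).symm
  have hz1 : z = degen q (-w) := by rw [map_neg, eq_neg_iff_add_eq_zero, h]
  have hVV : degen q (degen q z) = z := by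
    obtain ⟨k, h1, h2, h3⟩ := exists_slash_of_degen hq0 hcop (MS_Gamma1 hz)
      (MS_Gamma1 (Submodule.neg_mem _ hw)) hz1 1
    have hk : k ∈ Gamma0 M := by
      rw [Gamma0_mem]
      have h4 : ((q : ℤ) : ZMod M) * ((k 1 0 : ℤ) : ZMod M) = 0 := by
        rw [h1]; simp
      have hu : IsUnit ((q : ℕ) : ZMod M) := (ZMod.isUnit_iff_coprime q M).mpr hcop.symm
      rw [Int.cast_natCast] at h4
      exact (hu.mul_right_eq_zero).mp h4
    rw [toQ_one', slash_one, hz.2 k hk] at h3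
    rw [degen_degen hq0 hq0, ← pow_two]
    exact h3.symm
  have hVz : degen q z = -w := by
    apply IharaInj.degen_injective q
    rw [hVV, hz1]
  have hVw : degen q w = -z := by rw [eq_neg_iff_add_eq_zero, add_comm, h]
  have e1 : heckeT q z = -((q : R) + 1) • w := by
    have h5 : heckeU q z = -((q : R) • w) := by
      rw [hz1, heckeU_degen_self hq0 (TInv_of_mem (Submodule.neg_mem _ hw)), smul_neg]
    rw [heckeT_apply, h5, hVz]
    module
  have e2 : heckeT q w = -((q : R) + 1) • z := by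
    have hw1 : w = degen q (-z) := by rw [map_neg, hVz, neg_neg]
    have h5 : heckeU q w = -((q : R) • z) := by
      conv_lhs => rw [hw1]
      rw [heckeU_degen_self hq0 (TInv_of_mem (Submodule.neg_mem _ hz)), smul_neg]
    rw [heckeT_apply, h5, hVw]
    module
  constructor
  · rw [e1, map_smul, e2, smul_smul]
    congr 1
    ring
  · rw [e2, map_smul, e1, smul_smul]
    congr 1
    ring

end inj

section eig

variable {𝒪 : Type*} [CommRing 𝒪] {K : Type*} [Field K]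

/-- The eigenspace for the `T_ℓ`, `ℓ ∉ S`, in symbols of level `M` and sign `ε`. -/
def CEig (j : 𝒪 →+* K) (a : ℕ → 𝒪) (S : Set ℕ) (M : ℕ) (ε : ℤ) : Submodule K (Pairs K) :=
  sgnMS K ε (Gamma0 M) ⊓ ⨅ ℓ : ℕ, ⨅ _ : ℓ.Prime ∧ ℓ ∉ S,
    LinearMap.ker (heckeT ℓ - j (a ℓ) • LinearMap.id : Module.End K (Pairs K))

theorem mem_CEig {j : 𝒪 →+* K} {a : ℕ → 𝒪} {S : Set ℕ} {M : ℕ} {ε : ℤ} {y : Pairs K} :
    y ∈ CEig j a S M ε ↔ y ∈ sgnMS K ε (Gamma0 M) ∧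
      ∀ ℓ : ℕ, ℓ.Prime → ℓ ∉ S → heckeT ℓ y = j (a ℓ) • y := by
  rw [CEig, Submodule.mem_inf]
  simp only [Submodule.mem_iInf, LinearMap.mem_ker, LinearMap.sub_apply, LinearMap.smul_apply,
    LinearMap.id_apply, sub_eq_zero, and_imp]

theorem CEig.mem_MS {j : 𝒪 →+* K} {a : ℕ → 𝒪} {S : Set ℕ} {M : ℕ} {ε : ℤ} {y : Pairs K}
    (h : y ∈ CEig j a S M ε) : y ∈ MS (Gamma0 M) K := (mem_sgnMS.mp (mem_CEig.mp h).1).1

theorem CEig.sgn {j : 𝒪 →+* K} {a : ℕ → 𝒪} {S : Set ℕ} {M : ℕ} {ε : ℤ} {y : Pairs K}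
    (h : y ∈ CEig j a S M ε) : slash jMat y = (ε : K) • y := (mem_sgnMS.mp (mem_CEig.mp h).1).2

variable {j : 𝒪 →+* K} {a : ℕ → 𝒪} {S : Set ℕ} {M : ℕ} {ε : ℤ}

/-- `U_r` preserves the eigenspace. -/
theorem heckeU_mem_CEig {r : ℕ} (hr : r.Prime) (hrM : r ∣ M) (hrS : r ∈ S) {y : Pairs K}
    (hy : y ∈ CEig j a S M ε) : heckeU r y ∈ CEig j a S M ε := by
  have : NeZero r := ⟨hr.ne_zero⟩
  have hM := CEig.mem_MS hy
  refine mem_CEig.mpr ⟨mem_sgnMS.mpr ⟨heckeU_mem_MS hrM hM, ?_⟩, fun ℓ hℓ hℓS => ?_⟩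
  · rw [← heckeU_slash_jMat hM hr.ne_zero, CEig.sgn hy, map_smul]
  · have hne : ℓ ≠ r := by rintro rfl; exact hℓS hrS
    rw [heckeT_heckeU hℓ.ne_zero hr.ne_zero ((Nat.coprime_primes hℓ hr).mpr hne)
      (TInv_of_mem hM), (mem_CEig.mp hy).2 ℓ hℓ hℓS, map_smul]

/-- `T_r` preserves the eigenspace. -/
theorem heckeT_mem_CEig {r : ℕ} (hr : r.Prime) (hrM : ¬ r ∣ M) (hrS : r ∈ S) {y : Pairs K}
    (hy : y ∈ CEig j a S M ε) : heckeT r y ∈ CEig j a S M ε := by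
  have hM := CEig.mem_MS hy
  refine mem_CEig.mpr ⟨mem_sgnMS.mpr ⟨heckeT_mem_MS hr hrM hM, ?_⟩, fun ℓ hℓ hℓS => ?_⟩
  · rw [← heckeT_slash_jMat hM hr.ne_zero, CEig.sgn hy, map_smul]
  · have hne : ℓ ≠ r := by rintro rfl; exact hℓS hrS
    rw [heckeT_comm hℓ.ne_zero hr.ne_zero ((Nat.coprime_primes hℓ hr).mpr hne)
      (TInv_of_mem hM), (mem_CEig.mp hy).2 ℓ hℓ hℓS, map_smul]

/-- `V_r` maps the eigenspace of level `M` to the one of level `M r`. -/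
theorem degen_mem_CEig {r : ℕ} (hr : r.Prime) (hrS : r ∈ S) {y : Pairs K}
    (hy : y ∈ CEig j a S M ε) : degen r y ∈ CEig j a S (M * r) ε := by
  have hM := CEig.mem_MS hy
  refine mem_CEig.mpr ⟨mem_sgnMS.mpr ⟨degen_mem hr.ne_zero hM, ?_⟩, fun ℓ hℓ hℓS => ?_⟩
  · rw [← degen_slash_jMat hr.ne_zero, CEig.sgn hy, map_smul]
  · have hne : r ≠ ℓ := by rintro rfl; exact hℓS hrS
    rw [heckeT_degen hℓ.ne_zero hr.ne_zero ((Nat.coprime_primes hr hℓ).mpr hne)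
      (TInv_of_mem hM), (mem_CEig.mp hy).2 ℓ hℓ hℓS, map_smul]

theorem CEig_mono {M' : ℕ} (h : M ∣ M') : CEig j a S M ε ≤ CEig j a S M' ε := by
  intro y hy
  exact mem_CEig.mpr ⟨mem_sgnMS.mpr ⟨MS_mono (Gamma0_mono h) (CEig.mem_MS hy), CEig.sgn hy⟩,
    (mem_CEig.mp hy).2⟩

theorem raise_mem_CEig {r : ℕ} (hr : r.Prime) (hrM : ¬ r ∣ M) (hrS : r ∈ S) {y : Pairs K}
    (hy : y ∈ CEig j a S M ε) : Form.raise r y ∈ CEig j a S (M * r ^ 2) ε := by
  have h1 : M * r ∣ M * r ^ 2 := ⟨r, by ring⟩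
  rw [raise_apply]
  refine add_mem (sub_mem (Submodule.smul_mem _ _ (CEig_mono (Dvd.intro _ rfl) hy))
    (CEig_mono h1 (degen_mem_CEig hr hrS (heckeT_mem_CEig hr hrM hrS hy)))) ?_
  have := degen_mem_CEig hr hrS (degen_mem_CEig hr hrS hy)
  rwa [mul_assoc, ← pow_two] at this

end eig

/-! ### the data from newform theory -/

section PT

variable {𝒪 : Type*} [CommRing 𝒪] {K : Type*} [Field K]

/-- What is needed from the theory of newforms (`N` is the conductor of the eigensystem). -/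
structure PTData (j : 𝒪 →+* K) (a : ℕ → 𝒪) (S : Set ℕ) (N : ℕ) (ε : ℤ) : Prop where
  /-- multiplicity one at the conductor -/
  line : ∃ y₀ : Pairs K, y₀ ≠ 0 ∧ y₀ ∈ CEig j a S N ε ∧ ∀ y ∈ CEig j a S N ε, ∃ c : K, y = c • y₀
  /-- the eigenvalues at all primes not dividing the conductor -/
  eig : ∀ y ∈ CEig j a S N ε, ∀ ℓ : ℕ, ℓ.Prime → ¬ ℓ ∣ N → heckeT ℓ y = j (a ℓ) • y
  /-- Ramanujan bound -/
  ne : ∀ q : ℕ, q.Prime → ¬ q ∣ N → j (a q) ^ 2 ≠ ((q : K) + 1) ^ 2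
  /-- Atkin–Lehner -/
  two : ∀ M q : ℕ, M ≠ 0 → N ∣ M → q.Prime → ¬ q ∣ M → q ∈ S → (∀ r : ℕ, r.Prime → r ∣ M → r ∈ S) →
    ∀ y ∈ CEig j a S (M * q ^ 2) ε, ∃ z₀ ∈ CEig j a S M ε, ∃ z₁ ∈ CEig j a S M ε,
      ∃ z₂ ∈ CEig j a S M ε, y = z₀ + degen q z₁ + degen q (degen q z₂)
  /-- Atkin–Lehner -/
  one : ∀ M q : ℕ, M ≠ 0 → N ∣ M → q.Prime → ¬ q ∣ M → q ∈ S → (∀ r : ℕ, r.Prime → r ∣ M → r ∈ S) →
    ∀ y ∈ CEig j a S (M * q) ε, ∃ z₀ ∈ CEig j a S M ε, ∃ z₁ ∈ CEig j a S M ε,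
      y = z₀ + degen q z₁

variable {j : 𝒪 →+* K} {a : ℕ → 𝒪} {S : Set ℕ} {M : ℕ} {ε : ℤ}

/-- A level `M` at which all `T_q`, `q ∤ M`, act by `a q` on the eigenspace. -/
def Sc (j : 𝒪 →+* K) (a : ℕ → 𝒪) (S : Set ℕ) (M : ℕ) (ε : ℤ) : Prop :=
  ∀ y ∈ CEig j a S M ε, ∀ q : ℕ, q.Prime → ¬ q ∣ M → heckeT q y = j (a q) • y

theorem heckeT_degen_eig {q r : ℕ} (hq : q.Prime) (hr : r.Prime) (hqr : q ≠ r) {z : Pairs K}
    {c : K} (hT : TInv z) (h : heckeT q z = c • z) : heckeT q (degen r z) = c • degen r z := by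
  rw [heckeT_degen hq.ne_zero hr.ne_zero ((Nat.coprime_primes hr hq).mpr (Ne.symm hqr)) hT, h,
    map_smul]

theorem PTData.sc_two {N : ℕ} (h : PTData j a S N ε) {q : ℕ} (hM : M ≠ 0) (hNM : N ∣ M)
    (hq : q.Prime) (hqM : ¬ q ∣ M) (hqS : q ∈ S) (hMS : ∀ r : ℕ, r.Prime → r ∣ M → r ∈ S)
    (hs : Sc j a S M ε) : Sc j a S (M * q ^ 2) ε := by
  intro y hy r hr hrM
  obtain ⟨z₀, h0, z₁, h1, z₂, h2, rfl⟩ := h.two M q hM hNM hq hqM hqS hMS y hy
  have hr1 : ¬ r ∣ M := fun hd => hrM (Dvd.dvd.mul_right hd _)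
  have hr2 : r ≠ q := by
    rintro rfl
    exact hrM (Dvd.dvd.mul_left (dvd_pow_self r two_ne_zero) _)
  have e1 := heckeT_degen_eig hr hq hr2 (TInv_of_mem (CEig.mem_MS h1)) (hs z₁ h1 r hr hr1)
  have e2 := heckeT_degen_eig hr hq hr2 (TInv_of_mem (CEig.mem_MS h2)) (hs z₂ h2 r hr hr1)
  have e3 := heckeT_degen_eig hr hq hr2 (TInv_of_mem (degen_mem hq.ne_zero (CEig.mem_MS h2))) e2
  rw [map_add, map_add, hs z₀ h0 r hr hr1, e1, e3, smul_add, smul_add]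

theorem PTData.sc_one {N : ℕ} (h : PTData j a S N ε) {q : ℕ} (hM : M ≠ 0) (hNM : N ∣ M)
    (hq : q.Prime) (hqM : ¬ q ∣ M) (hqS : q ∈ S) (hMS : ∀ r : ℕ, r.Prime → r ∣ M → r ∈ S)
    (hs : Sc j a S M ε) : Sc j a S (M * q) ε := by
  intro y hy r hr hrM
  obtain ⟨z₀, h0, z₁, h1, rfl⟩ := h.one M q hM hNM hq hqM hqS hMS y hy
  have hr1 : ¬ r ∣ M := fun hd => hrM (Dvd.dvd.mul_right hd _)
  have hr2 : r ≠ q := by
    rintro rfl
    exact hrM (Dvd.dvd.mul_left dvd_rfl _)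
  have e1 := heckeT_degen_eig hr hq hr2 (TInv_of_mem (CEig.mem_MS h1)) (hs z₁ h1 r hr hr1)
  rw [map_add, hs z₀ h0 r hr hr1, e1, smul_add]

/-- injectivity of `(z, w) ↦ z + w|V_q` -/
theorem add_degen_eq_zero {q : ℕ} (hq : q.Prime) (hqM : ¬ q ∣ M)
    (hs : Sc j a S M ε) (hne : j (a q) ^ 2 ≠ ((q : K) + 1) ^ 2) {z w : Pairs K}
    (hz : z ∈ CEig j a S M ε) (hw : w ∈ CEig j a S M ε) (h : z + degen q w = 0) :
    z = 0 ∧ w = 0 := by
  obtain ⟨h1, h2⟩ := heckeT_sq_of_add_degen_eq_zero hq hqM (CEig.mem_MS hz) (CEig.mem_MS hw) h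
  rw [hs z hz q hq hqM, map_smul, hs z hz q hq hqM, smul_smul, ← sub_eq_zero, ← sub_smul,
    ← sq] at h1
  rw [hs w hw q hq hqM, map_smul, hs w hw q hq hqM, smul_smul, ← sub_eq_zero, ← sub_smul,
    ← sq] at h2
  exact ⟨(smul_eq_zero.mp h1).resolve_left (sub_ne_zero.mpr hne),
    (smul_eq_zero.mp h2).resolve_left (sub_ne_zero.mpr hne)⟩

variable [CharZero K]

/-- injectivity of `raise q` -/
theorem raise_eq_zero {q : ℕ} (hq : q.Prime) (hqM : ¬ q ∣ M)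
    (hs : Sc j a S M ε) (hne : j (a q) ^ 2 ≠ ((q : K) + 1) ^ 2) {z : Pairs K}
    (hz : z ∈ CEig j a S M ε) (h : Form.raise q z = 0) : z = 0 := by
  have hqK : (q : K) ≠ 0 := by exact_mod_cast hq.ne_zero
  obtain ⟨w, hw, hzw⟩ := IharaInj.degen_of_raise_eq_zero hq hqM (Ne.isUnit hqK)
    (CEig.mem_MS hz) (by exact h)
  have h1 := (heckeT_sq_of_add_degen_eq_zero hq hqM (CEig.mem_MS hz)
    (Submodule.neg_mem _ hw) (by rw [map_neg, ← hzw, add_neg_cancel])).1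
  rw [hs z hz q hq hqM, map_smul, hs z hz q hq hqM, smul_smul, ← sub_eq_zero, ← sub_smul,
    ← sq] at h1
  exact (smul_eq_zero.mp h1).resolve_left (sub_ne_zero.mpr hne)

/-- the kernel of `U_q` on the eigenspace of level `M q²` -/
theorem PTData.exists_raise {N : ℕ} (h : PTData j a S N ε) {q : ℕ} (hM : M ≠ 0) (hNM : N ∣ M)
    (hq : q.Prime) (hqM : ¬ q ∣ M) (hqS : q ∈ S) (hMS : ∀ r : ℕ, r.Prime → r ∣ M → r ∈ S)
    (hs : Sc j a S M ε) {y : Pairs K} (hy : y ∈ CEig j a S (M * q ^ 2) ε)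
    (hU : heckeU q y = 0) : ∃ z ∈ CEig j a S M ε, y = Form.raise q z := by
  have hq0 := hq.ne_zero
  have hqK : (q : K) ≠ 0 := by exact_mod_cast hq0
  obtain ⟨z₀, h0, z₁, h1, z₂, h2, rfl⟩ := h.two M q hM hNM hq hqM hqS hMS y hy
  have hne := h.ne q hq (fun hd => hqM (hd.trans hNM))
  have e0 : heckeU q z₀ = j (a q) • z₀ - degen q z₀ := by
    rw [← hs z₀ h0 q hq hqM, heckeT_apply, add_sub_cancel_right]
  have e1 := heckeU_degen_self hq0 (TInv_of_mem (CEig.mem_MS h1))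
  have e2 := heckeU_degen_self hq0 (TInv_of_mem (degen_mem hq0 (CEig.mem_MS h2)))
  have key : (j (a q) • z₀ + (q : K) • z₁) + degen q ((q : K) • z₂ - z₀) = 0 := by
    rw [← hU, map_add, map_add, e0, e1, e2, map_sub, map_smul]
    abel
  obtain ⟨k1, k2⟩ := add_degen_eq_zero hq hqM hs hne
    (add_mem (Submodule.smul_mem _ _ h0) (Submodule.smul_mem _ _ h1))
    (sub_mem (Submodule.smul_mem _ _ h2) h0) key
  refine ⟨z₂, h2, ?_⟩
  have k3 : z₀ = (q : K) • z₂ := (sub_eq_zero.mp k2).symm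
  have k4 : z₁ = -(j (a q) • z₂) := by
    rw [k3, smul_comm, ← smul_add] at k1
    have := (smul_eq_zero.mp k1).resolve_left hqK
    rw [eq_neg_iff_add_eq_zero, add_comm]
    exact this
  rw [raise_apply, hs z₂ h2 q hq hqM, k4, map_neg, ← sub_eq_add_neg, ← k3]

/-- `U_q³ - a_q U_q² + q U_q = 0` on the eigenspace of level `M q²`. -/
theorem PTData.heckeU_cubic {N : ℕ} (h : PTData j a S N ε) {q : ℕ} (hM : M ≠ 0) (hNM : N ∣ M)
    (hq : q.Prime) (hqM : ¬ q ∣ M) (hqS : q ∈ S) (hMS : ∀ r : ℕ, r.Prime → r ∣ M → r ∈ S)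
    (hs : Sc j a S M ε) {y : Pairs K} (hy : y ∈ CEig j a S (M * q ^ 2) ε) :
    (q : K) • heckeU q y = j (a q) • heckeU q (heckeU q y) - heckeU q (heckeU q (heckeU q y)) := by
  have hq0 := hq.ne_zero
  obtain ⟨z₀, h0, z₁, h1, z₂, h2, rfl⟩ := h.two M q hM hNM hq hqM hqS hMS y hy
  have e0 : ∀ z ∈ CEig j a S M ε, heckeU q z = j (a q) • z - degen q z := by
    intro z hz
    rw [← hs z hz q hq hqM, heckeT_apply, add_sub_cancel_right]
  have e1 : ∀ z ∈ CEig j a S M ε, heckeU q (degen q z) = (q : K) • z := fun z hz =>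
    heckeU_degen_self hq0 (TInv_of_mem (CEig.mem_MS hz))
  have e2 := heckeU_degen_self hq0 (TInv_of_mem (degen_mem hq0 (CEig.mem_MS h2)))
  simp only [map_add, map_sub, map_smul, e0 z₀ h0, e1 z₁ h1, e2, e1 z₀ h0, e0 z₁ h1, e1 z₂ h2,
    e0 z₂ h2]
  module

/-- `U_q² - a_q U_q + q = 0` on the eigenspace of level `M q`. -/
theorem PTData.heckeU_quadratic {N : ℕ} (h : PTData j a S N ε) {q : ℕ} (hM : M ≠ 0) (hNM : N ∣ M)
    (hq : q.Prime) (hqM : ¬ q ∣ M) (hqS : q ∈ S) (hMS : ∀ r : ℕ, r.Prime → r ∣ M → r ∈ S)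
    (hs : Sc j a S M ε) {y : Pairs K} (hy : y ∈ CEig j a S (M * q) ε) :
    heckeU q (heckeU q y) = j (a q) • heckeU q y - (q : K) • y := by
  have hq0 := hq.ne_zero
  obtain ⟨z₀, h0, z₁, h1, rfl⟩ := h.one M q hM hNM hq hqM hqS hMS y hy
  have e0 : ∀ z ∈ CEig j a S M ε, heckeU q z = j (a q) • z - degen q z := by
    intro z hz
    rw [← hs z hz q hq hqM, heckeT_apply, add_sub_cancel_right]
  have e1 : ∀ z ∈ CEig j a S M ε, heckeU q (degen q z) = (q : K) • z := fun z hz =>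
    heckeU_degen_self hq0 (TInv_of_mem (CEig.mem_MS hz))
  simp only [map_add, map_sub, map_smul, e0 z₀ h0, e1 z₁ h1, e1 z₀ h0, e0 z₁ h1]
  module

/-- the `A`-eigenspace of `U_p` on the eigenspace of level `M p` -/
theorem PTData.exists_raiseP {N : ℕ} (h : PTData j a S N ε) {p : ℕ} (hM : M ≠ 0) (hNM : N ∣ M)
    (hp : p.Prime) (hpM : ¬ p ∣ M) (hpS : p ∈ S) (hMS : ∀ r : ℕ, r.Prime → r ∣ M → r ∈ S)
    (hs : Sc j a S M ε) {A : K} {y : Pairs K} (hy : y ∈ CEig j a S (M * p) ε)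
    (hU : heckeU p y = A • y) :
    ∃ z ∈ CEig j a S M ε, y = A • z - degen p z := by
  have hp0 := hp.ne_zero
  obtain ⟨z₀, h0, z₁, h1, rfl⟩ := h.one M p hM hNM hp hpM hpS hMS y hy
  have hne := h.ne p hp (fun hd => hpM (hd.trans hNM))
  have e0 : heckeU p z₀ = j (a p) • z₀ - degen p z₀ := by
    rw [← hs z₀ h0 p hp hpM, heckeT_apply, add_sub_cancel_right]
  have e1 := heckeU_degen_self hp0 (TInv_of_mem (CEig.mem_MS h1))
  have key : (j (a p) • z₀ + (p : K) • z₁ - A • z₀) + degen p (-z₀ - A • z₁) = 0 := by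
    have h2 := hU
    rw [map_add, e0, e1, ← sub_eq_zero] at h2
    rw [← h2, map_sub, map_neg, map_smul]
    module
  obtain ⟨-, k2⟩ := add_degen_eq_zero hp hpM hs hne
    (sub_mem (add_mem (Submodule.smul_mem _ _ h0) (Submodule.smul_mem _ _ h1))
      (Submodule.smul_mem _ _ h0))
    (sub_mem (Submodule.neg_mem _ h0) (Submodule.smul_mem _ _ h1)) key
  refine ⟨-z₁, Submodule.neg_mem _ h1, ?_⟩
  have k3 : z₀ = -(A • z₁) := by
    rw [eq_neg_iff_add_eq_zero]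
    rw [sub_eq_add_neg, ← neg_add, neg_eq_zero] at k2
    exact k2
  rw [k3, map_neg, smul_neg, sub_neg_eq_add]

/-! ### several primes -/

/-- admissible sets of primes for level raising from the level `N` -/
def Adm (S : Set ℕ) (N : ℕ) (Q : Finset ℕ) : Prop := ∀ q ∈ Q, q.Prime ∧ ¬ q ∣ N ∧ q ∈ S

theorem Adm.prod_ne_zero {S : Set ℕ} {N : ℕ} {Q : Finset ℕ} (h : Adm S N Q) (hN : N ≠ 0) :
    N * ∏ q ∈ Q, q ^ 2 ≠ 0 :=
  mul_ne_zero hN (Finset.prod_ne_zero_iff.mpr fun r hr => pow_ne_zero _ (h r hr).1.ne_zero)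

theorem Adm.dvd {S : Set ℕ} {N : ℕ} {Q : Finset ℕ} (h : Adm S N Q) {q : ℕ} (hq : q.Prime)
    (hd : q ∣ N * ∏ q ∈ Q, q ^ 2) : q ∣ N ∨ q ∈ Q := by
  rcases (Nat.Prime.dvd_mul hq).mp hd with h1 | h1
  · exact Or.inl h1
  · rw [Prime.dvd_finsetProd_iff hq.prime] at h1
    obtain ⟨r, hr, h2⟩ := h1
    have h3 := (Nat.prime_dvd_prime_iff_eq hq (h r hr).1).mp (hq.dvd_of_dvd_pow h2)
    exact Or.inr (h3 ▸ hr)

theorem Adm.of_insert {S : Set ℕ} {N q : ℕ} {Q : Finset ℕ} (h : Adm S N (insert q Q)) :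
    Adm S N Q := fun r hr => h r (Finset.mem_insert_of_mem hr)

theorem prod_insert_sq {N q : ℕ} {Q : Finset ℕ} (hq : q ∉ Q) :
    N * ∏ r ∈ insert q Q, r ^ 2 = (N * ∏ r ∈ Q, r ^ 2) * q ^ 2 := by
  rw [Finset.prod_insert hq]
  ring

theorem Adm.mem_S {S : Set ℕ} {N : ℕ} {Q : Finset ℕ} (h : Adm S N Q)
    (hNS : ∀ r : ℕ, r.Prime → r ∣ N → r ∈ S) (r : ℕ) (hr : r.Prime)
    (hd : r ∣ N * ∏ q ∈ Q, q ^ 2) : r ∈ S := by
  rcases h.dvd hr hd with h1 | h1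
  · exact hNS r hr h1
  · exact (h r h1).2.2

theorem PTData.sc {N₀ N : ℕ} (h : PTData j a S N₀ ε) (hN : N ≠ 0) (hN₀ : N₀ ∣ N)
    (hNS : ∀ r : ℕ, r.Prime → r ∣ N → r ∈ S) (hs : Sc j a S N ε) (Q : Finset ℕ)
    (hQ : Adm S N Q) : Sc j a S (N * ∏ q ∈ Q, q ^ 2) ε := by
  induction Q using Finset.induction_on with
  | empty => simpa using hs
  | insert q Q hqQ ih =>
    rw [prod_insert_sq hqQ]
    obtain ⟨hq, hqN, hqS⟩ := hQ q (Finset.mem_insert_self _ _)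
    have hQ' := hQ.of_insert
    exact h.sc_two (hQ'.prod_ne_zero hN) (hN₀.trans (Dvd.intro _ rfl)) hq
      (fun hd => (hQ'.dvd hq hd).elim hqN hqQ) hqS (fun r => hQ'.mem_S hNS r) (ih hQ')

/-- **The common kernel of the `U_q`, `q ∈ Q`.** -/
theorem PTData.exists_L {N₀ N : ℕ} (h : PTData j a S N₀ ε) (hN : N ≠ 0) (hN₀ : N₀ ∣ N)
    (hNS : ∀ r : ℕ, r.Prime → r ∣ N → r ∈ S) (hs : Sc j a S N ε) (Q : Finset ℕ)
    (hQ : Adm S N Q) : ∃ L : Pairs K →ₗ[K] Pairs K,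
      (∀ y ∈ CEig j a S N ε, L y ∈ CEig j a S (N * ∏ q ∈ Q, q ^ 2) ε) ∧
      (∀ y ∈ CEig j a S N ε, L y = 0 → y = 0) ∧
      (∀ y ∈ CEig j a S N ε, ∀ r : ℕ, r.Prime → r ∣ N → heckeU r (L y) = L (heckeU r y)) ∧
      (∀ y ∈ CEig j a S (N * ∏ q ∈ Q, q ^ 2) ε, (∀ q ∈ Q, heckeU q y = 0) →
        ∃ y₀ ∈ CEig j a S N ε, y = L y₀) := by
  induction Q using Finset.induction_on with
  | empty =>
    refine ⟨LinearMap.id, fun y hy => by simpa using hy, fun y _ hy => by simpa using hy,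
      fun y _ r _ _ => rfl, fun y hy _ => ⟨y, by simpa using hy, rfl⟩⟩
  | insert q Q hqQ ih =>
    obtain ⟨hq, hqN, hqS⟩ := hQ q (Finset.mem_insert_self _ _)
    have hQ' := hQ.of_insert
    obtain ⟨L, h1, h2, h3, h4⟩ := ih hQ'
    have hM := hQ'.prod_ne_zero hN
    have hqM : ¬ q ∣ N * ∏ q ∈ Q, q ^ 2 := fun hd => (hQ'.dvd hq hd).elim hqN hqQ
    have hsM := h.sc hN hN₀ hNS hs Q hQ'
    have hNM : N₀ ∣ N * ∏ q ∈ Q, q ^ 2 := hN₀.trans (Dvd.intro _ rfl)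
    have hMS := fun r => hQ'.mem_S hNS r
    have hne := h.ne q hq (fun hd => hqN (hd.trans hN₀))
    rw [prod_insert_sq hqQ]
    refine ⟨Form.raise q ∘ₗ L, fun y hy => raise_mem_CEig hq hqM hqS (h1 y hy),
      fun y hy h0 => h2 y hy (raise_eq_zero hq hqM hsM hne (h1 y hy) h0),
      fun y hy r hr hrN => ?_, fun y hy hU => ?_⟩
    · rw [LinearMap.comp_apply, LinearMap.comp_apply, ← h3 y hy r hr hrN]
      have hrq : r ≠ q := by rintro rfl; exact hqN hrN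
      exact heckeU_raise_comm hq hqM hr hrq (CEig.mem_MS (h1 y hy))
    · obtain ⟨z, hz, rfl⟩ := h.exists_raise hM hNM hq hqM hqS hMS hsM hy
        (hU q (Finset.mem_insert_self _ _))
      have hUz : ∀ r ∈ Q, heckeU r z = 0 := by
        intro r hr
        have hrq : r ≠ q := by rintro rfl; exact hqQ hr
        have h5 := hU r (Finset.mem_insert_of_mem hr)
        have hrp := (hQ' r hr).1
        rw [heckeU_raise_comm hq hqM hrp hrq (CEig.mem_MS hz)] at h5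
        have hrd : r ∣ N * ∏ q ∈ Q, q ^ 2 := Dvd.dvd.mul_left
          ((dvd_pow_self r two_ne_zero).trans (Finset.dvd_prod_of_mem (fun q => q ^ 2) hr)) _
        exact raise_eq_zero hq hqM hsM hne (heckeU_mem_CEig hrp hrd (hQ' r hr).2.2 hz) h5
      obtain ⟨y₀, hy₀, rfl⟩ := h4 z hz hUz
      exact ⟨y₀, hy₀, rfl⟩

/-- **One-dimensionality**, no step at `p`. -/
theorem PTData.line_final {N : ℕ} (h : PTData j a S N ε) (hN : N ≠ 0)
    (hNS : ∀ r : ℕ, r.Prime → r ∣ N → r ∈ S) (Q : Finset ℕ)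
    (hQ : Adm S N Q) : ∃ y₁ : Pairs K, ∀ y ∈ CEig j a S (N * ∏ q ∈ Q, q ^ 2) ε,
      (∀ q ∈ Q, heckeU q y = 0) → ∃ c : K, y = c • y₁ := by
  obtain ⟨L, -, -, -, h4⟩ := h.exists_L hN dvd_rfl hNS h.eig Q hQ
  obtain ⟨y₀, -, -, hy₀⟩ := h.line
  refine ⟨L y₀, fun y hy hU => ?_⟩
  obtain ⟨z, hz, rfl⟩ := h4 y hy hU
  obtain ⟨c, rfl⟩ := hy₀ z hz
  exact ⟨c, map_smul _ _ _⟩

/-- **One-dimensionality**, with a step at `p`. -/
theorem PTData.line_finalP {N : ℕ} (h : PTData j a S N ε) (hN : N ≠ 0)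
    (hNS : ∀ r : ℕ, r.Prime → r ∣ N → r ∈ S) {p : ℕ} (hp : p.Prime) (hpN : ¬ p ∣ N) (hpS : p ∈ S)
    (Q : Finset ℕ) (hQ : Adm S (N * p) Q) (A : K) :
    ∃ y₁ : Pairs K, ∀ y ∈ CEig j a S (N * p * ∏ q ∈ Q, q ^ 2) ε,
      (∀ q ∈ Q, heckeU q y = 0) → heckeU p y = A • y → ∃ c : K, y = c • y₁ := by
  have hNp : N * p ≠ 0 := mul_ne_zero hN hp.ne_zero
  have hNpS : ∀ r : ℕ, r.Prime → r ∣ N * p → r ∈ S := by
    intro r hr hd
    rcases (Nat.Prime.dvd_mul hr).mp hd with h1 | h1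
    · exact hNS r hr h1
    · rw [(Nat.prime_dvd_prime_iff_eq hr hp).mp h1]; exact hpS
  have hsP : Sc j a S (N * p) ε := h.sc_one hN dvd_rfl hp hpN hpS hNS h.eig
  obtain ⟨L, h1, h2, h3, h4⟩ := h.exists_L hNp (Dvd.intro _ rfl) hNpS hsP Q hQ
  obtain ⟨y₀, -, -, hy₀⟩ := h.line
  refine ⟨L (A • y₀ - degen p y₀), fun y hy hU hUp => ?_⟩
  obtain ⟨z, hz, rfl⟩ := h4 y hy hU
  have h5 : heckeU p z = A • z := by
    rw [← sub_eq_zero]
    have hUz := heckeU_mem_CEig hp (dvd_mul_left p N) hpS hz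
    apply h2 _ (sub_mem hUz (Submodule.smul_mem _ _ hz))
    rw [map_sub, map_smul, ← h3 z hz p hp (dvd_mul_left p N), hUp, sub_self]
  obtain ⟨w, hw, rfl⟩ := h.exists_raiseP hN dvd_rfl hp hpN hpS hNS h.eig hz h5
  obtain ⟨c, rfl⟩ := hy₀ w hw
  refine ⟨c, ?_⟩
  rw [← map_smul]
  congr 1
  rw [map_smul, smul_sub, smul_comm]

end PT

/-! ### topologically nilpotent implies zero -/

section nil

variable {𝒪 : Type*} [CommRing 𝒪] [IsDomain 𝒪] [IsDiscreteValuationRing 𝒪]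
  {K : Type*} [Field K] [CharZero K]
  {j : 𝒪 →+* K} {a : ℕ → 𝒪} {S : Set ℕ} {ε : ℤ}

theorem mapCoeff_injective {j : 𝒪 →+* K} (hj : Function.Injective j) :
    Function.Injective (mapCoeff j : Pairs 𝒪 → Pairs K) := by
  intro x y h
  funext s t
  exact hj (congrFun (congrFun h s) t)

/-- a symbol divisible by all nonzero constants is zero -/
theorem eq_zero_of_forall_smul {x : Pairs 𝒪} (h : ∀ c : 𝒪, c ≠ 0 → ∃ z, x = c • z) : x = 0 := by
  obtain ⟨ϖ, hϖ⟩ := IsDiscreteValuationRing.exists_irreducible 𝒪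
  funext s t
  by_contra hne
  obtain ⟨n, hn⟩ := IsDiscreteValuationRing.associated_pow_irreducible (R := 𝒪)
    (x := x s t) hne hϖ
  obtain ⟨z, hz⟩ := h (ϖ ^ (n + 1)) (pow_ne_zero _ hϖ.ne_zero)
  have h1 : x s t = ϖ ^ (n + 1) * z s t := congrFun (congrFun hz s) t
  have h2 : ϖ ^ (n + 1) ∣ ϖ ^ n := (hn.dvd_iff_dvd_right).mp (Dvd.intro _ h1.symm)
  rw [pow_dvd_pow_iff hϖ.ne_zero hϖ.not_isUnit] at h2
  omega

/-- If `U` is topologically nilpotent at `x` and `c U x = U² (…)`, then `U x = 0`. -/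
theorem eq_zero_of_nil {T G : Module.End 𝒪 (Pairs 𝒪)} {x : Pairs 𝒪} {c : 𝒪} (hc : IsUnit c)
    (hcomm : ∀ y, T (G y) = G (T y)) (h : c • T x = G (T (T x))) (hx : x ∈ nilSub T) :
    T x = 0 := by
  obtain ⟨c', hc'⟩ := hc.exists_left_inv
  have hcommn : ∀ n : ℕ, ∀ y, (T ^ n) (G y) = G ((T ^ n) y) := by
    intro n
    induction n with
    | zero => intro y; rfl
    | succ n ih => intro y; rw [pow_succ, Module.End.mul_apply, hcomm, ih, Module.End.mul_apply]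
  have key : ∀ n : ℕ, T x = (c' ^ n) • (G ^ n) ((T ^ n) (T x)) := by
    intro n
    induction n with
    | zero => simp
    | succ n ih =>
      have h1 : T x = c' • G (T (T x)) := by rw [← h, smul_smul, hc', one_smul]
      have h2 : (T ^ n) (T x) = c' • G ((T ^ (n + 1)) (T x)) := by
        conv_lhs => rw [h1]
        rw [map_smul, hcommn, pow_succ, Module.End.mul_apply]
      conv_lhs => rw [ih, h2]
      rw [map_smul, smul_smul, ← pow_succ, pow_succ G n, Module.End.mul_apply]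
  apply eq_zero_of_forall_smul
  intro d hd
  obtain ⟨n, z, hz⟩ := hx d hd
  refine ⟨(c' ^ n) • (G ^ n) (T z), ?_⟩
  rw [key n, ← Module.End.mul_apply (T ^ n) T, ← pow_succ, pow_succ', Module.End.mul_apply, hz,
    map_smul, map_smul, smul_comm]

theorem heckeU_eq_zero_of_nil (hj : Function.Injective j) {q : ℕ} (hqu : IsUnit (q : 𝒪))
    {a : 𝒪} {x : Pairs 𝒪} (hx : x ∈ nilSub (heckeU q : Module.End 𝒪 (Pairs 𝒪)))
    (h : (q : K) • heckeU q (mapCoeff j x) = j a • heckeU q (heckeU q (mapCoeff j x)) -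
      heckeU q (heckeU q (heckeU q (mapCoeff j x)))) : heckeU q x = 0 := by
  have h1 : (q : 𝒪) • heckeU q x = a • heckeU q (heckeU q x) - heckeU q (heckeU q (heckeU q x)) := by
    apply mapCoeff_injective hj
    rw [map_sub, IharaInj.mapCoeff_smul, IharaInj.mapCoeff_smul, mapCoeff_heckeU, mapCoeff_heckeU, mapCoeff_heckeU,
      mapCoeff_heckeU, map_natCast, mapCoeff_heckeU, mapCoeff_heckeU]
    exact h
  refine eq_zero_of_nil (T := heckeU q) (G := a • LinearMap.id - heckeU q) hqu ?_ ?_ hx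
  · intro y
    simp
  · rw [h1]
    simp

/-- If `U_p - α` is topologically nilpotent at `x`, `α ≡ A` a unit and `(U_p - A)(U_p - B) x = 0`
with `A + B = a_p`, `A B = p`, then `U_p x = A x`. -/
theorem heckeU_eq_of_nil (hj : Function.Injective j) {p : ℕ} (hp𝒪 : (p : 𝒪) ∈ maximalIdeal 𝒪)
    {a A α : 𝒪} (hα : IsUnit α) (hA : A ^ 2 - a * A + p = 0) (hαA : A - α ∈ maximalIdeal 𝒪)
    {x : Pairs 𝒪} (hx : x ∈ nilSub (heckeU p - α • LinearMap.id : Module.End 𝒪 (Pairs 𝒪)))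
    (h : heckeU p (heckeU p (mapCoeff j x)) =
      j a • heckeU p (mapCoeff j x) - (p : K) • mapCoeff j x) :
    heckeU p x = A • x := by
  have h1 : heckeU p (heckeU p x) = a • heckeU p x - (p : 𝒪) • x := by
    apply mapCoeff_injective hj
    rw [map_sub, IharaInj.mapCoeff_smul, IharaInj.mapCoeff_smul, mapCoeff_heckeU, mapCoeff_heckeU, map_natCast]
    exact h
  -- `x' = U x - A x` satisfies `U x' = (a - A) x'`
  set x' := heckeU p x - A • x with hx'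
  have h2 : heckeU p x' = (a - A) • x' := by
    have h3 : (p : 𝒪) = a * A - A ^ 2 := by linear_combination hA
    rw [hx', map_sub, map_smul, h1, h3]
    module
  have hAu : IsUnit A := by
    by_contra hn
    have h4 : A ∈ maximalIdeal 𝒪 := (IsLocalRing.mem_maximalIdeal _).mpr hn
    have h5 : α ∈ maximalIdeal 𝒪 := by
      have := sub_mem h4 hαA
      rwa [sub_sub_cancel] at this
    exact (IsLocalRing.mem_maximalIdeal _).mp h5 hα
  have hB : a - A ∈ maximalIdeal 𝒪 := by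
    have h4 : (a - A) * A ∈ maximalIdeal 𝒪 := by
      have : (a - A) * A = p := by linear_combination -hA
      rw [this]; exact hp𝒪
    exact (Ideal.IsPrime.mem_or_mem inferInstance h4).resolve_right fun h5 =>
      (IsLocalRing.mem_maximalIdeal _).mp h5 hAu
  have hBα : IsUnit (a - A - α) := by
    by_contra hn
    have h4 : a - A - α ∈ maximalIdeal 𝒪 := (IsLocalRing.mem_maximalIdeal _).mpr hn
    have h5 : α ∈ maximalIdeal 𝒪 := by
      have := sub_mem hB h4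
      rwa [sub_sub_cancel] at this
    exact (IsLocalRing.mem_maximalIdeal _).mp h5 hα
  obtain ⟨b, hb⟩ := hBα.exists_left_inv
  set T : Module.End 𝒪 (Pairs 𝒪) := heckeU p - α • LinearMap.id with hT
  have hTx' : T x' = (a - A - α) • x' := by
    rw [hT, LinearMap.sub_apply, LinearMap.smul_apply, LinearMap.id_apply, h2]
    module
  have hTn : ∀ n : ℕ, (T ^ n) x' = ((a - A - α) ^ n) • x' := by
    intro n
    induction n with
    | zero => simp
    | succ n ih =>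
      rw [pow_succ, Module.End.mul_apply, hTx', map_smul, ih, smul_smul, ← pow_succ']
  have hcomm : ∀ n : ℕ, (T ^ n) (heckeU p x) = heckeU p ((T ^ n) x) := by
    intro n
    have h3 : Commute T (heckeU p) := by
      refine LinearMap.ext fun y => ?_
      simp [hT]
    exact LinearMap.congr_fun (h3.pow_left n).eq x
  have hzero : x' = 0 := by
    apply eq_zero_of_forall_smul
    intro d hd
    obtain ⟨n, z, hz⟩ := hx d hd
    refine ⟨(b ^ n) • (heckeU p z - A • z), ?_⟩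
    have h3 : (T ^ n) x' = d • (heckeU p z - A • z) := by
      rw [hx', map_sub, hcomm, map_smul, hz, map_smul, smul_sub, smul_comm A d z]
    have h4 : x' = (b ^ n) • (T ^ n) x' := by
      rw [hTn, smul_smul, ← mul_pow, hb, one_pow, one_smul]
    rw [h4, h3, smul_comm]
  rw [hx', sub_eq_zero] at hzero
  exact hzero

end nil

end Fermat.Agent.RT.Num
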