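import Fermat.Agent.RT.NC.Pairing

/-!
# Numerical assembly: abstract part (team RT, helper41)

* `exists_rank_one`: a free module with a one-dimensional eigenspace is free of rank one;
* `minimal_length`: `length Φ_{R₁} = ord ⟨e₁, e₁'⟩` and `⟨e₁, e₁'⟩ ≠ 0` for `R₁` a reduced finite
  free complete intersection and `M₁` a free `R₁`-module;
* `faithful_of_numerical`: `R₂` acts faithfully on `M₂ × M₂'`.
-/

set_option autoImplicit false
set_option linter.unusedSectionVars false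
set_option linter.style.haveILetI false

open IsLocalRing Module Fermat.Agent.RT.NC

namespace Fermat.Agent.RT.Num

section one

variable {𝒪 : Type*} [CommRing 𝒪] [IsDomain 𝒪] [IsDiscreteValuationRing 𝒪]
  {T : Type*} [CommRing T] [Algebra 𝒪 T]
  {M : Type*} [AddCommGroup M] [Module 𝒪 M] [Module T M] [IsScalarTower 𝒪 T M]
  {M' : Type*} [AddCommGroup M'] [Module 𝒪 M'] [Module T M'] [IsScalarTower 𝒪 T M']

/-- A free `T`-module whose `θ`-eigenspace is generated by one nonzero vector is free of rank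
one. -/
theorem exists_rank_one [Module.Free 𝒪 T] [Module.Free T M] (θ : T →ₐ[𝒪] 𝒪) (e : M) (he0 : e ≠ 0)
    (he : ∀ x ∈ RingHom.ker θ, x • e = 0)
    (hgen : ∀ m : M, (∀ x ∈ RingHom.ker θ, x • m = 0) → ∃ b : 𝒪, m = b • e) :
    ∃ m₀ : M, (∀ m : M, ∃ t : T, m = t • m₀) ∧ ∀ t : T, t • m₀ = 0 → t = 0 := by
  classical
  have htf : Module.IsTorsionFree 𝒪 T := inferInstance
  let b := Module.Free.chooseBasis T M
  -- a coordinate of `e`
  obtain ⟨i, hi⟩ : ∃ i, b.repr e i ≠ 0 := by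
    by_contra h
    push Not at h
    apply he0
    have : b.repr e = 0 := Finsupp.ext h
    simpa using this
  set t := b.repr e i with ht
  have htann : ∀ x ∈ RingHom.ker θ, x * t = 0 := by
    intro x hx
    have h1 := he x hx
    have h2 : b.repr (x • e) i = 0 := by rw [h1]; simp
    rw [map_smul, Finsupp.smul_apply, smul_eq_mul] at h2
    exact h2
  have hmem : ∀ j, ∀ x ∈ RingHom.ker θ, x • (t • b j) = 0 := by
    intro j x hx
    rw [smul_smul, htann x hx, zero_smul]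
  have hall : ∀ j, j = i := by
    intro j
    by_contra hij
    obtain ⟨y, hy⟩ := hgen _ (hmem i)
    obtain ⟨z, hz⟩ := hgen _ (hmem j)
    have h1 : z • (t • b i) = y • (t • b j) := by
      rw [hy, hz, smul_smul, smul_smul, mul_comm]
    have h2 := congrArg (fun m => b.repr m i) h1
    have h3 : z • t = 0 := by
      simpa [Finsupp.single_apply, hij, ← algebraMap_smul T, smul_smul] using h2
    have hz0 : z = 0 := (smul_eq_zero.mp h3).resolve_right hi
    rw [hz0, zero_smul] at hz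
    have h4 := congrArg (fun m => b.repr m j) hz
    simp at h4
    exact hi h4
  refine ⟨b i, fun m => ⟨b.repr m i, ?_⟩, fun x hx => ?_⟩
  · apply b.repr.injective
    ext j
    rw [hall j]
    simp
  · have h2 := congrArg (fun m => b.repr m i) hx
    simpa using h2

/-- The minimal case: the pairing of the eigenvectors is nonzero and computes the length of the
cotangent space. -/
theorem minimal_length [IsAdicComplete (maximalIdeal 𝒪) 𝒪] [Module.Finite 𝒪 T]
    [Module.Free 𝒪 T] [IsReduced T] [Module.Free T M] (hCI : IsCI 𝒪 T) (θ : T →ₐ[𝒪] 𝒪)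
    (B : M →ₗ[𝒪] M' →ₗ[𝒪] 𝒪)
    (hB : ∀ (t : T) (m : M) (m' : M'), B (t • m) m' = B m (t • m'))
    (e : M) (he0 : e ≠ 0) (he : ∀ x ∈ RingHom.ker θ, x • e = 0)
    (hgen : ∀ m : M, (∀ x ∈ RingHom.ker θ, x • m = 0) → ∃ b : 𝒪, m = b • e)
    (e' : M') (he' : ∀ x ∈ RingHom.ker θ, x • e' = 0) (hprim : ∃ m, B m e' = 1) :
    B e e' ≠ 0 ∧ Module.length 𝒪 (RingHom.ker θ).Cotangent = Ring.ord 𝒪 (B e e') := by
  obtain ⟨m₀, h1, h2⟩ := exists_rank_one θ e he0 he hgen
  have hne : B e e' ≠ 0 := by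
    obtain ⟨t, ht⟩ := h1 e
    have htann : ∀ x ∈ RingHom.ker θ, x * t = 0 := by
      intro x hx
      apply h2
      rw [mul_smul, ← ht]
      exact he x hx
    have hBe : B e e' = θ t * B m₀ e' := by
      rw [ht, hB, smul_eq_aug_smul θ e' he', map_smul, smul_eq_mul]
    have ht0 : θ t ≠ 0 := by
      intro h
      have h3 : t * t = 0 := htann t h
      have h4 : t = 0 := by
        have : IsNilpotent t := ⟨2, by rw [sq, h3]⟩
        exact this.eq_zero
      exact he0 (by rw [ht, h4, zero_smul])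
    have hm0 : B m₀ e' ≠ 0 := by
      intro h
      obtain ⟨m, hm⟩ := hprim
      obtain ⟨s, rfl⟩ := h1 m
      rw [hB, smul_eq_aug_smul θ e' he', map_smul, h, smul_zero] at hm
      exact zero_ne_one hm
    rw [hBe]
    exact mul_ne_zero ht0 hm0
  exact ⟨hne, ord_pairing_eq hCI θ B hB m₀ h1 h2 e he hgen e' he' hprim hne⟩

end one

section two

variable {𝒪 : Type*} [CommRing 𝒪] [IsDomain 𝒪] [IsDiscreteValuationRing 𝒪]

theorem exists_prim {M M' : Type*} [AddCommGroup M] [Module 𝒪 M] [AddCommGroup M'] [Module 𝒪 M']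
    [Module.Free 𝒪 M'] [Module.Finite 𝒪 M'] (B : M →ₗ[𝒪] M' →ₗ[𝒪] 𝒪)
    (hperf : Function.Surjective B) (e' : M')
    (hsat : ∀ (c : 𝒪) (m : M'), e' = c • m → IsUnit c) : ∃ m, B m e' = 1 := by
  refine exists_pairing_eq_one B hperf e' ?_
  obtain ⟨ϖ, hϖ⟩ := IsDiscreteValuationRing.exists_irreducible 𝒪
  intro hmem
  rw [hϖ.maximalIdeal_eq, Submodule.ideal_span_singleton_smul] at hmem
  obtain ⟨m, -, hm⟩ := hmem
  exact hϖ.not_isUnit (hsat ϖ m hm.symm)

/-- **The numerical criterion, abstract form.** -/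
theorem faithful_of_numerical [IsAdicComplete (maximalIdeal 𝒪) 𝒪]
    {R : Type*} [CommRing R] [IsLocalRing R] [IsNoetherianRing R]
    [IsAdicComplete (maximalIdeal R) R] [Algebra 𝒪 R]
    {M M' : Type*} [AddCommGroup M] [Module 𝒪 M] [AddCommGroup M'] [Module 𝒪 M']
    [Module.Finite 𝒪 M] [Module.Free 𝒪 M] [Module.Finite 𝒪 M'] [Module.Free 𝒪 M']
    (a : R →ₐ[𝒪] Module.End 𝒪 M) (a' : R →ₐ[𝒪] Module.End 𝒪 M')
    (B : M →ₗ[𝒪] M' →ₗ[𝒪] 𝒪) (hB : ∀ (r : R) (m : M) (m' : M'), B (a r m) m' = B m (a' r m'))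
    (lam : R →ₐ[𝒪] 𝒪)
    (e : M) (he : ∀ r, a r e = lam r • e) (he0 : e ≠ 0)
    (hgen : ∀ m : M, (∀ r, a r m = lam r • m) → ∃ b : 𝒪, m = b • e)
    (e' : M') (he' : ∀ r, a' r e' = lam r • e') (hprim : ∃ m, B m e' = 1)
    (hne : B e e' ≠ 0)
    (hΦ : Module.length 𝒪 (RingHom.ker lam).Cotangent ≤ Ring.ord 𝒪 (B e e')) (r : R)
    (hr : a r = 0) (hr' : a' r = 0) : r = 0 := by
  classical
  let J : Ideal R := RingHom.ker (a : R →+* Module.End 𝒪 M) ⊓
    RingHom.ker (a' : R →+* Module.End 𝒪 M')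
  have hJ : ∀ x : R, x ∈ J ↔ a x = 0 ∧ a' x = 0 := by
    intro x
    rw [Submodule.mem_inf, RingHom.mem_ker, RingHom.mem_ker]
    rfl
  let b : R ⧸ J →ₐ[𝒪] Module.End 𝒪 M := Ideal.Quotient.liftₐ J a fun x hx => ((hJ x).mp hx).1
  let b' : R ⧸ J →ₐ[𝒪] Module.End 𝒪 M' := Ideal.Quotient.liftₐ J a' fun x hx => ((hJ x).mp hx).2
  have hb : ∀ x : R, b (Ideal.Quotient.mk J x) = a x := fun x => rfl
  have hb' : ∀ x : R, b' (Ideal.Quotient.mk J x) = a' x := fun x => rfl
  -- `lam` factors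
  have hlamJ : ∀ x ∈ J, lam x = 0 := by
    intro x hx
    have h1 := he x
    rw [((hJ x).mp hx).1, LinearMap.zero_apply] at h1
    exact (smul_eq_zero.mp h1.symm).resolve_right he0
  let θ : R ⧸ J →ₐ[𝒪] 𝒪 := Ideal.Quotient.liftₐ J lam hlamJ
  have hθ : ∀ x : R, θ (Ideal.Quotient.mk J x) = lam x := fun x => rfl
  let φ : R →ₐ[𝒪] R ⧸ J := Ideal.Quotient.mkₐ 𝒪 J
  have hφ : Function.Surjective φ := Ideal.Quotient.mkₐ_surjective 𝒪 J
  have hcomp : θ.comp φ = lam := by
    ext x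
    rfl
  -- finiteness
  have hinj : Function.Injective ((b.toLinearMap).prod (b'.toLinearMap)) := by
    rw [← LinearMap.ker_eq_bot, LinearMap.ker_eq_bot']
    intro t ht
    obtain ⟨x, rfl⟩ := Ideal.Quotient.mk_surjective t
    have h1 : b (Ideal.Quotient.mk J x) = 0 := congrArg Prod.fst ht
    have h2 : b' (Ideal.Quotient.mk J x) = 0 := congrArg Prod.snd ht
    rw [hb] at h1
    rw [hb'] at h2
    exact Ideal.Quotient.eq_zero_iff_mem.mpr ((hJ x).mpr ⟨h1, h2⟩)
  have hfin : Module.Finite 𝒪 (R ⧸ J) := Module.Finite.of_injective _ hinj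
  have htf : Module.IsTorsionFree 𝒪 (R ⧸ J) := by
    exact Function.Injective.moduleIsTorsionFree _ hinj fun c m => map_smul _ c m
  have hfree : Module.Free 𝒪 (R ⧸ J) := Module.free_of_finite_type_torsion_free'
  letI i1 : Module (R ⧸ J) M := Module.compHom M (b : R ⧸ J →+* Module.End 𝒪 M)
  letI i2 : Module (R ⧸ J) M' := Module.compHom M' (b' : R ⧸ J →+* Module.End 𝒪 M')
  have s1 : ∀ (t : R ⧸ J) (m : M), t • m = b t m := fun _ _ => rfl
  have s2 : ∀ (t : R ⧸ J) (m : M'), t • m = b' t m := fun _ _ => rfl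
  haveI : IsScalarTower 𝒪 (R ⧸ J) M := ⟨fun c t m => by
    rw [s1, s1, map_smul, LinearMap.smul_apply]⟩
  haveI : IsScalarTower 𝒪 (R ⧸ J) M' := ⟨fun c t m => by
    rw [s2, s2, map_smul, LinearMap.smul_apply]⟩
  have key := numerical_criterion_pairing φ hφ θ B
    (by
      intro t m m'
      obtain ⟨x, rfl⟩ := Ideal.Quotient.mk_surjective t
      exact hB x m m') e
    (by
      intro m hm
      refine hgen m fun x => ?_
      have h1 := hm (Ideal.Quotient.mk J (x - algebraMap 𝒪 R (lam x))) (by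
        rw [RingHom.mem_ker, hθ, map_sub, AlgHom.commutes]
        exact sub_self _)
      rw [s1, hb, map_sub, AlgHom.commutes, LinearMap.sub_apply, Module.algebraMap_end_apply,
        sub_eq_zero] at h1
      exact h1) e'
    (by
      intro t ht
      obtain ⟨x, rfl⟩ := Ideal.Quotient.mk_surjective t
      have h1 : lam x = 0 := ht
      rw [s2, hb', he', h1, zero_smul]) hprim hne
    (by rw [hcomp]; exact hΦ)
  apply key.1.1
  have h3 : φ r = 0 := Ideal.Quotient.eq_zero_iff_mem.mpr ((hJ r).mpr ⟨hr, hr'⟩)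
  rw [h3, map_zero]

end two

end Fermat.Agent.RT.Num
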