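import Fermat.Agent.RT.Num.Level
import Fermat.Agent.RT.Num.Abstract

/-!
# Numerical assembly: main theorems (team RT, helper41)

* `injective_of_level`: numerical criterion at the level `M`;
* `minimal_level`: the equality at the minimal level;
* `injective_sigma`, `injective_sigmaP`: `R_Σ → heckeLocal(N_Σ)` is injective.
-/

set_option autoImplicit false
set_option linter.unusedSectionVars false
set_option linter.style.haveILetI false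

open Matrix Matrix.SpecialLinearGroup CongruenceSubgroup IsLocalRing
open scoped MatrixGroups OnePoint

noncomputable section

namespace Fermat.Agent.RT.Num

open Fermat.Agent.LR Fermat.Agent.LR.PS Fermat.Agent.RT.Form Fermat.Agent.RT.MSHecke CuspForm
  Fermat.Agent.RT.Loc Fermat.Agent.RT.NC

variable {𝒪 : Type} [CommRing 𝒪] [IsDomain 𝒪] [IsDiscreteValuationRing 𝒪]
  [IsAdicComplete (maximalIdeal 𝒪) 𝒪] [Finite (ResidueField 𝒪)] [CharZero 𝒪]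
variable {M : ℕ} [NeZero M] {S : Set ℕ} {t a u : ℕ → 𝒪} {P : Finset ℕ}
variable (θ : heckeAlgebra M 2 S →+* ResidueField 𝒪) [Fact (HasIntegralStructure M 2)]

theorem Prim.isUnit {e : Pairs 𝒪} (he : Prim e) {c : 𝒪} {m : Pairs 𝒪} (h : e = c • m) :
    IsUnit c := by
  by_contra hc
  exact he c ((IsLocalRing.mem_maximalIdeal _).mpr hc) m h

/-- non-Eisenstein primes at all levels -/
def GoodSysS (S : Set ℕ) (p : ℕ) (a : ℕ → 𝒪) : Prop :=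
  ∀ M q : ℕ, M ≠ 0 → q.Prime → ∃ ℓ, IharaInj.Good M q p ℓ ∧ ¬ ℓ ∣ M ∧ ℓ ∉ S ∧ IsUnit (2 - a ℓ)

theorem GoodSysS.goodSys {p : ℕ} (h : GoodSysS S p a) : GoodSys p a := fun M q hM hq => by
  obtain ⟨ℓ, h1, h2, -, h3⟩ := h M q hM hq
  exact ⟨ℓ, h1, h2, h3⟩

/-- a prime `ℓ₀ ≡ 1 mod M`, `ℓ₀ ∉ S` with `t ℓ₀ ≢ 1 + ℓ₀` -/
theorem GoodSysS.exists_prime {p : ℕ} (hp : p.Prime) (hp𝒪 : (p : 𝒪) ∈ maximalIdeal 𝒪)
    (h : GoodSysS S p a) (ht : ∀ ℓ : ℕ, ℓ.Prime → ℓ ∉ S → a ℓ - t ℓ ∈ maximalIdeal 𝒪)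
    {M : ℕ} (hM : M ≠ 0) :
    ∃ ℓ : ℕ, ℓ.Prime ∧ ℓ ∉ S ∧ ((ℓ : ℕ) : ZMod M) = 1 ∧ IsUnit (t ℓ - (1 + ℓ)) := by
  obtain ⟨ℓ, h1, -, h2, h3⟩ := h M p hM hp
  refine ⟨ℓ, h1.1, h2, ?_, ?_⟩
  · have h4 := (ZMod.natCast_eq_natCast_iff ℓ 1 M).mpr (h1.2.1.of_mul_right _)
    rwa [Nat.cast_one] at h4
  · have h4 : ℓ ≡ 1 [MOD p] := (h1.2.1.of_mul_left M).of_mul_right _
    have h5 : ((ℓ : ℕ) : 𝒪) - 1 ∈ maximalIdeal 𝒪 := by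
      obtain ⟨c, hc⟩ := (Nat.modEq_iff_dvd.mp h4.symm)
      have h6 : ((ℓ : ℕ) : 𝒪) - 1 = (p : 𝒪) * (c : 𝒪) := by
        have := congrArg (Int.cast : ℤ → 𝒪) hc
        push_cast at this
        exact this
      rw [h6]
      exact Ideal.mul_mem_right _ _ hp𝒪
    by_contra hn
    have h7 := (IsLocalRing.mem_maximalIdeal _).mpr hn
    have h8 : (2 : 𝒪) - a ℓ ∈ maximalIdeal 𝒪 := by
      have e : (2 : 𝒪) - a ℓ = -((t ℓ - (1 + ℓ)) + (a ℓ - t ℓ) + ((ℓ : 𝒪) - 1)) := by ring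
      rw [e]
      exact neg_mem (add_mem (add_mem h7 (ht ℓ h1.1 h2)) h5)
    exact (IsLocalRing.mem_maximalIdeal _).mp h8 h3

/-- **Numerical criterion at a level.** -/
theorem injective_of_level {p : ℕ} [Fact p.Prime] (hp2 : p ≠ 2)
    (hp𝒪 : (p : 𝒪) ∈ maximalIdeal 𝒪) (hS : ∀ r : ℕ, r.Prime → r ∣ M → r ∈ S)
    (hP : ∀ r ∈ P, r.Prime ∧ r ∣ M) (hg : GoodSysS S p a)
    (hθ : ∀ ℓ : Idx S, residue 𝒪 (t ℓ.1) = θ (genS M S ℓ))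
    (ht : ∀ ℓ : ℕ, ℓ.Prime → ℓ ∉ S → a ℓ - t ℓ ∈ maximalIdeal 𝒪)
    {R : Type} [CommRing R] [IsLocalRing R] [IsNoetherianRing R]
    [IsAdicComplete (maximalIdeal R) R] [Algebra 𝒪 R] (φ : R →ₐ[𝒪] heckeLocal M S 𝒪 θ)
    (hφ : Function.Surjective φ) {μ : heckeLocal M S 𝒪 θ →ₐ[𝒪] 𝒪}
    (hμ : ∀ ℓ : Idx S, μ (heckeLocal.π M S 𝒪 θ (genS M S ℓ)) = a ℓ.1)
    {K : Type*} [Field K] {j : 𝒪 →+* K} (hj : Function.Injective j)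
    (hline : ∀ ε : ℤ, ε = 1 ∨ ε = -1 → ∃ y : Pairs K, ∀ m ∈ MP S t P u M ε,
      (∀ ℓ : ℕ, ℓ.Prime → ℓ ∉ S → heckeT ℓ m = a ℓ • m) → ∃ c : K, mapCoeff j m = c • y)
    {e e' : Pairs 𝒪} (he : Vec M 1 a u P e) (he' : Vec M (-1) a u P e') (hep : Prim e)
    (hep' : Prim e') (hne : brk M e e' ≠ 0)
    (hΦ : Module.length 𝒪 (RingHom.ker (μ.comp φ)).Cotangent ≤ Ring.ord 𝒪 (brk M e e')) :
    Function.Injective φ := by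
  have hp : p.Prime := Fact.out
  have hodd : Odd p := hp.odd_of_ne_two hp2
  obtain ⟨ℓ₀, hℓ₀, hℓ₀S, hℓ₀M, hE⟩ := hg.exists_prime hp hp𝒪 ht (NeZero.ne M)
  obtain ⟨Φ, hΦ1⟩ := exists_act_MP θ hS hP hθ hℓ₀ hℓ₀S hℓ₀M hE 1 (u := u)
  obtain ⟨Φ', hΦ1'⟩ := exists_act_MP θ hS hP hθ hℓ₀ hℓ₀S hℓ₀M hE (-1) (u := u)
  have heM := he.mem_MP hS ht
  have heM' := he'.mem_MP hS ht
  have hT : ∀ ℓ : Idx S, ¬ (ℓ.1 : ℕ) ∣ M := fun ℓ hd => ℓ.2 (hS _ ℓ.1.2 hd)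
  have hperf := brkRes_bijective (famData (𝒪 := 𝒪) (t := t) (u := u) hS hP) hodd hp𝒪 hℓ₀ hℓ₀M hE
    ⟨Sum.inl ⟨⟨ℓ₀, hℓ₀⟩, hℓ₀S⟩, rfl⟩ (ε := 1) (by norm_num)
  let B : MP S t P u M 1 →ₗ[𝒪] MP S t P u M (-1) →ₗ[𝒪] 𝒪 :=
    brkRes (𝒪 := 𝒪) M (part_sgn_le 1 (Set.range (fam S t P u)))
      (part_sgn_le (-1) (Set.range (fam S t P u)))
  have hB : ∀ x y, B x y = brk M x.1 y.1 := fun _ _ => rfl
  have hprim : ∃ m, B m ⟨e', heM'⟩ = 1 := by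
    refine exists_prim B hperf.2 ⟨e', heM'⟩ fun c m hm => ?_
    exact hep'.isUnit (congrArg Subtype.val hm)
  have heig : ∀ τ, Φ τ ⟨e, heM⟩ = μ τ • (⟨e, heM⟩ : MP S t P u M 1) :=
    act_eigen θ hΦ1 hμ fun ℓ => he.eigT _ ℓ.1.2 (hT ℓ)
  have heig' : ∀ τ, Φ' τ ⟨e', heM'⟩ = μ τ • (⟨e', heM'⟩ : MP S t P u M (-1)) :=
    act_eigen θ hΦ1' hμ fun ℓ => he'.eigT _ ℓ.1.2 (hT ℓ)
  rw [injective_iff_map_eq_zero]
  intro r hr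
  refine faithful_of_numerical (Φ.comp φ) (Φ'.comp φ) B ?_ (μ.comp φ) ⟨e, heM⟩ ?_ ?_ ?_ ⟨e', heM'⟩
    ?_ hprim hne hΦ r ?_ ?_
  · intro r m m'
    exact act_adjoint θ hS hΦ1 hΦ1' (φ r) m m'
  · intro r
    exact heig (φ r)
  · intro h
    exact hep.ne_zero (congrArg Subtype.val h)
  · intro m hm
    have hm' : ∀ ℓ : ℕ, ℓ.Prime → ℓ ∉ S → heckeT ℓ (m : Pairs 𝒪) = a ℓ • (m : Pairs 𝒪) := by
      intro ℓ hℓ hℓS
      obtain ⟨r, hr⟩ := hφ (heckeLocal.π M S 𝒪 θ (genS M S ⟨⟨ℓ, hℓ⟩, hℓS⟩))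
      have h1 := congrArg Subtype.val (hm r)
      rw [AlgHom.comp_apply, AlgHom.comp_apply, hr, hΦ1, hμ] at h1
      exact h1
    obtain ⟨y, hy⟩ := hline 1 (Or.inl rfl)
    obtain ⟨b, hb⟩ := exists_smul_of_line hj hep
      (hy e heM fun ℓ hℓ hℓS => he.eigT ℓ hℓ fun hd => hℓS (hS ℓ hℓ hd)) (hy m m.2 hm')
    exact ⟨b, Subtype.ext hb⟩
  · intro r
    exact heig' (φ r)
  · rw [AlgHom.comp_apply, hr, map_zero]
  · rw [AlgHom.comp_apply, hr, map_zero]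

/-- **The minimal level.** -/
theorem minimal_level {p : ℕ} [Fact p.Prime] (hp2 : p ≠ 2)
    (hp𝒪 : (p : 𝒪) ∈ maximalIdeal 𝒪) (hS : ∀ r : ℕ, r.Prime → r ∣ M → r ∈ S)
    (hP : ∀ r ∈ P, r.Prime ∧ r ∣ M) (hg : GoodSysS S p a)
    (hθ : ∀ ℓ : Idx S, residue 𝒪 (t ℓ.1) = θ (genS M S ℓ))
    (ht : ∀ ℓ : ℕ, ℓ.Prime → ℓ ∉ S → a ℓ - t ℓ ∈ maximalIdeal 𝒪)
    (hred : IsReduced (heckeLocal M S 𝒪 θ))
    {R : Type} [CommRing R] [Algebra 𝒪 R] (φ : R →ₐ[𝒪] heckeLocal M S 𝒪 θ)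
    (hφ : Function.Surjective φ) (hCI : IsCI 𝒪 R)
    (hfree : ∀ Φ : heckeLocal M S 𝒪 θ →ₐ[𝒪] Module.End 𝒪 (MP S t P u M 1),
      (∀ (ℓ : Idx S) (x : MP S t P u M 1),
        (Φ (heckeLocal.π M S 𝒪 θ (genS M S ℓ)) x : Pairs 𝒪) = heckeT (ℓ.1 : ℕ) x) →
      @Module.Free R (MP S t P u M 1) _ _
        (Module.compHom _ ((Φ.comp φ : R →ₐ[𝒪] _) : R →+* Module.End 𝒪 (MP S t P u M 1))))
    {μ : heckeLocal M S 𝒪 θ →ₐ[𝒪] 𝒪}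
    (hμ : ∀ ℓ : Idx S, μ (heckeLocal.π M S 𝒪 θ (genS M S ℓ)) = a ℓ.1)
    {K : Type*} [Field K] {j : 𝒪 →+* K} (hj : Function.Injective j)
    (hline : ∀ ε : ℤ, ε = 1 ∨ ε = -1 → ∃ y : Pairs K, ∀ m ∈ MP S t P u M ε,
      (∀ ℓ : ℕ, ℓ.Prime → ℓ ∉ S → heckeT ℓ m = a ℓ • m) → ∃ c : K, mapCoeff j m = c • y)
    {e e' : Pairs 𝒪} (he : Vec M 1 a u P e) (he' : Vec M (-1) a u P e') (hep : Prim e)
    (hep' : Prim e') :
    brk M e e' ≠ 0 ∧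
      Module.length 𝒪 (RingHom.ker (μ.comp φ)).Cotangent = Ring.ord 𝒪 (brk M e e') := by
  have hp : p.Prime := Fact.out
  have hodd : Odd p := hp.odd_of_ne_two hp2
  obtain ⟨ℓ₀, hℓ₀, hℓ₀S, hℓ₀M, hE⟩ := hg.exists_prime hp hp𝒪 ht (NeZero.ne M)
  obtain ⟨Φ, hΦ1⟩ := exists_act_MP θ hS hP hθ hℓ₀ hℓ₀S hℓ₀M hE 1 (u := u)
  obtain ⟨Φ', hΦ1'⟩ := exists_act_MP θ hS hP hθ hℓ₀ hℓ₀S hℓ₀M hE (-1) (u := u)
  have heM := he.mem_MP hS ht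
  have heM' := he'.mem_MP hS ht
  have hT : ∀ ℓ : Idx S, ¬ (ℓ.1 : ℕ) ∣ M := fun ℓ hd => ℓ.2 (hS _ ℓ.1.2 hd)
  have hperf := brkRes_bijective (famData (𝒪 := 𝒪) (t := t) (u := u) hS hP) hodd hp𝒪 hℓ₀ hℓ₀M hE
    ⟨Sum.inl ⟨⟨ℓ₀, hℓ₀⟩, hℓ₀S⟩, rfl⟩ (ε := 1) (by norm_num)
  let B : MP S t P u M 1 →ₗ[𝒪] MP S t P u M (-1) →ₗ[𝒪] 𝒪 :=
    brkRes (𝒪 := 𝒪) M (part_sgn_le 1 (Set.range (fam S t P u)))
      (part_sgn_le (-1) (Set.range (fam S t P u)))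
  have hprim : ∃ m, B m ⟨e', heM'⟩ = 1 := by
    refine exists_prim B hperf.2 ⟨e', heM'⟩ fun c m hm => ?_
    exact hep'.isUnit (congrArg Subtype.val hm)
  have heig : ∀ τ, Φ τ ⟨e, heM⟩ = μ τ • (⟨e, heM⟩ : MP S t P u M 1) :=
    act_eigen θ hΦ1 hμ fun ℓ => he.eigT _ ℓ.1.2 (hT ℓ)
  have heig' : ∀ τ, Φ' τ ⟨e', heM'⟩ = μ τ • (⟨e', heM'⟩ : MP S t P u M (-1)) :=
    act_eigen θ hΦ1' hμ fun ℓ => he'.eigT _ ℓ.1.2 (hT ℓ)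
  have hF := hfree Φ hΦ1
  letI i1 : Module R (MP S t P u M 1) :=
    Module.compHom _ ((Φ.comp φ : R →ₐ[𝒪] _) : R →+* Module.End 𝒪 (MP S t P u M 1))
  letI i2 : Module R (MP S t P u M (-1)) :=
    Module.compHom _ ((Φ'.comp φ : R →ₐ[𝒪] _) : R →+* Module.End 𝒪 (MP S t P u M (-1)))
  haveI : Module.Free R (MP S t P u M 1) := hF
  have s1 : ∀ (r : R) (m : MP S t P u M 1), r • m = Φ (φ r) m := fun _ _ => rfl
  have s2 : ∀ (r : R) (m : MP S t P u M (-1)), r • m = Φ' (φ r) m := fun _ _ => rfl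
  haveI : IsScalarTower 𝒪 R (MP S t P u M 1) := ⟨fun c r m => by
    rw [s1, s1, map_smul, map_smul, LinearMap.smul_apply]⟩
  haveI : IsScalarTower 𝒪 R (MP S t P u M (-1)) := ⟨fun c r m => by
    rw [s2, s2, map_smul, map_smul, LinearMap.smul_apply]⟩
  have he0 : (⟨e, heM⟩ : MP S t P u M 1) ≠ 0 := fun h => hep.ne_zero (congrArg Subtype.val h)
  -- `φ` is injective
  have hinj : Function.Injective φ := by
    rw [injective_iff_map_eq_zero]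
    intro r hr
    let b := Module.Free.chooseBasis R (MP S t P u M 1)
    obtain ⟨i⟩ : Nonempty (Module.Free.ChooseBasisIndex R (MP S t P u M 1)) := by
      by_contra hcon
      rw [not_nonempty_iff] at hcon
      apply he0
      have := b.repr.injective (Subsingleton.elim (b.repr ⟨e, heM⟩) (b.repr 0))
      exact this
    have h1 : r • b i = 0 := by rw [s1, hr, map_zero, LinearMap.zero_apply]
    have h2 := congrArg (fun m => b.repr m i) h1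
    simpa using h2
  haveI : IsReduced R := isReduced_of_injective φ hinj
  haveI : Module.Finite 𝒪 R := Module.Finite.of_injective φ.toLinearMap hinj
  haveI : Module.IsTorsionFree 𝒪 R :=
    Function.Injective.moduleIsTorsionFree φ hinj fun c m => map_smul _ c m
  haveI : Module.Free 𝒪 R := Module.free_of_finite_type_torsion_free'
  refine minimal_length hCI (μ.comp φ) B ?_ ⟨e, heM⟩ he0 ?_ ?_ ⟨e', heM'⟩ ?_ hprim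
  · intro r m m'
    exact act_adjoint θ hS hΦ1 hΦ1' (φ r) m m'
  · intro r hr
    rw [s1, heig]
    have : μ (φ r) = 0 := hr
    rw [this, zero_smul]
  · intro m hm
    have hm' : ∀ ℓ : ℕ, ℓ.Prime → ℓ ∉ S → heckeT ℓ (m : Pairs 𝒪) = a ℓ • (m : Pairs 𝒪) := by
      intro ℓ hℓ hℓS
      obtain ⟨r, hr⟩ := hφ (heckeLocal.π M S 𝒪 θ (genS M S ⟨⟨ℓ, hℓ⟩, hℓS⟩))
      have hmem : r - algebraMap 𝒪 R (a ℓ) ∈ RingHom.ker (μ.comp φ) := by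
        rw [RingHom.mem_ker, map_sub, AlgHom.commutes, AlgHom.comp_apply, hr, hμ]
        exact sub_self _
      have h1 := hm _ hmem
      rw [sub_smul, sub_eq_zero, algebraMap_smul] at h1
      have h2 := congrArg Subtype.val h1
      rw [s1, hr, hΦ1] at h2
      exact h2
    obtain ⟨y, hy⟩ := hline 1 (Or.inl rfl)
    obtain ⟨b, hb⟩ := exists_smul_of_line hj hep
      (hy e heM fun ℓ hℓ hℓS => he.eigT ℓ hℓ fun hd => hℓS (hS ℓ hℓ hd)) (hy m m.2 hm')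
    exact ⟨b, Subtype.ext hb⟩
  · intro r hr
    rw [s2, heig']
    have : μ (φ r) = 0 := hr
    rw [this, zero_smul]

end Fermat.Agent.RT.Num
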