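import Fermat.Agent.RT.Num.Level

/-!
# Numerical assembly: from complex eigensymbols to primitive integral ones (team RT, helper41)

* `mem_of_manin`: the values of a modular symbol lie in the group generated by its values on the
  Manin symbols;
* `exists_prim_vec`: the eigenline at the conductor has a primitive `𝒪`-integral generator.
-/

set_option autoImplicit false
set_option linter.unusedSectionVars false

open Matrix Matrix.SpecialLinearGroup CongruenceSubgroup IsLocalRing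
open scoped MatrixGroups OnePoint

noncomputable section

namespace Fermat.Agent.RT.Num

open Fermat.Agent.LR Fermat.Agent.LR.PS Fermat.Agent.RT.Form Fermat.Agent.RT.MSHecke

section manin

variable {R : Type*} [CommRing R]

/-- Manin's trick in a subgroup. -/
theorem mem_of_manin {z : Pairs R} (hz : ∀ a b c, z a b + z b c = z a c) (W : AddSubgroup R)
    (h : ∀ g : SL(2, ℤ), z (toQ g • ∞) (toQ g • cusp0) ∈ W) (a b : Cusp) : z a b ∈ W := by
  have hself : ∀ a, z a a ∈ W := by
    intro a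
    have h1 := hz a a a
    have h2 : z a a = 0 := by
      rwa [add_eq_left] at h1
    rw [h2]; exact zero_mem _
  have hneg : ∀ a b, z a b ∈ W → z b a ∈ W := by
    intro a b hab
    have h1 := hz b a b
    have h2 := hself b
    rw [← h1] at h2
    have := sub_mem h2 hab
    rwa [add_sub_cancel_right] at this
  have key : ∀ k : SL(2, ℤ), ∀ g : SL(2, ℤ), z (toQ g • ∞) (toQ (g * k) • ∞) ∈ W := by
    intro k
    have hk : k ∈ Subgroup.closure {ModularGroup.S, ModularGroup.T} := by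
      rw [SpecialLinearGroup.SL2Z_generators]; trivial
    induction hk using Subgroup.closure_induction with
    | mem x hx =>
      intro g
      rcases hx with rfl | rfl
      · rw [toQ_mul, mul_smul, toQ_S_smul_infty]; exact h g
      · rw [toQ_mul, mul_smul, toQ_T_smul_infty]; exact hself _
    | one => intro g; rw [mul_one]; exact hself _
    | mul x y _ _ hx hy =>
      intro g
      rw [← hz _ (toQ (g * x) • ∞) _, ← mul_assoc]
      exact add_mem (hx g) (hy (g * x))
    | inv x _ hx =>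
      intro g
      have := hx (g * x⁻¹)
      rw [inv_mul_cancel_right] at this
      exact hneg _ _ this
  obtain ⟨g, rfl⟩ := exists_SL2_smul_infty a
  obtain ⟨k, rfl⟩ := exists_SL2_smul_infty b
  have := key (g⁻¹ * k) g
  rwa [mul_inv_cancel_left] at this

theorem finite_manin_values {Γ : Subgroup SL(2, ℤ)} [Γ.FiniteIndex] {z : Pairs R}
    (hz : z ∈ MS Γ R) :
    (Set.range fun g : SL(2, ℤ) => z (toQ g • ∞) (toQ g • cusp0)).Finite := by
  let f : SL(2, ℤ) ⧸ Γ → R := Quotient.lift (fun h : SL(2, ℤ) =>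
    z (toQ h⁻¹ • ∞) (toQ h⁻¹ • cusp0)) (by
      intro h k hk
      have hk' : h⁻¹ * k ∈ Γ := QuotientGroup.leftRel_apply.mp hk
      obtain ⟨γ, hγ, hγ'⟩ : ∃ γ ∈ Γ, k = h * γ := ⟨h⁻¹ * k, hk', by group⟩
      have h1 : z = slash (toQ γ⁻¹) z := (hz.2 _ (inv_mem hγ)).symm
      show z (toQ h⁻¹ • ∞) (toQ h⁻¹ • cusp0) = z (toQ k⁻¹ • ∞) (toQ k⁻¹ • cusp0)
      rw [hγ', _root_.mul_inv_rev, toQ_mul, mul_smul, mul_smul]
      conv_lhs => rw [h1]
      rfl)
  have : Finite (SL(2, ℤ) ⧸ Γ) := Subgroup.finite_quotient_of_finiteIndex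
  refine (Set.finite_range f).subset ?_
  rintro _ ⟨g, rfl⟩
  refine ⟨(QuotientGroup.mk g⁻¹ : SL(2, ℤ) ⧸ Γ), ?_⟩
  show z (toQ g⁻¹⁻¹ • ∞) (toQ g⁻¹⁻¹ • cusp0) = _
  rw [inv_inv]

end manin

section descent

variable {𝒪 : Type*} [CommRing 𝒪] [IsDomain 𝒪] [IsDiscreteValuationRing 𝒪]
  {K : Type*} [Field K] {j : 𝒪 →+* K}

/-- **Descent**: a nonzero symbol over `K` has an `𝒪`-linear integral primitive specialisation. -/
theorem exists_prim_functional (hj : Function.Injective j) {Γ : Subgroup SL(2, ℤ)} [Γ.FiniteIndex]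
    {y : Pairs K} (hy : y ∈ MS Γ K) (hy0 : y ≠ 0) :
    ∃ e : Pairs 𝒪, Prim e ∧ e ∈ MS Γ 𝒪 ∧
      (∀ g : GL (Fin 2) ℚ, ∀ c : 𝒪, slash g y = j c • y → slash g e = c • e) ∧
      (∀ ℓ : ℕ, ∀ c : 𝒪, heckeT ℓ y = j c • y → heckeT ℓ e = c • e) ∧
      (∀ ℓ : ℕ, ∀ c : 𝒪, heckeU ℓ y = j c • y → heckeU ℓ e = c • e) := by
  classical
  let _ : Algebra 𝒪 K := j.toAlgebra
  have hjsmul : ∀ (c : 𝒪) (x : K), c • x = j c * x := fun _ _ => rfl
  set V : Set K := Set.range fun g : SL(2, ℤ) => y (toQ g • ∞) (toQ g • cusp0) with hV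
  have hVfin : V.Finite := finite_manin_values hy
  set W : Submodule 𝒪 K := Submodule.span 𝒪 V with hW
  have hyW : ∀ s t, y s t ∈ W := fun s t => mem_of_manin hy.1 W.toAddSubgroup
    (fun g => Submodule.subset_span ⟨g, rfl⟩) s t
  have : Module.Finite 𝒪 W := Module.Finite.span_of_finite 𝒪 hVfin
  have : Module.IsTorsionFree 𝒪 K := by
    refine ⟨fun c hc x z hxz => ?_⟩
    have h1 : j c * x = j c * z := hxz
    have h2 : j c ≠ 0 := by
      rw [Ne, ← map_zero j]
      exact fun h => hc.ne_zero (hj h)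
    exact mul_left_cancel₀ h2 h1
  have : Module.Free 𝒪 W := Module.free_of_finite_type_torsion_free'
  let b := Module.Free.chooseBasis 𝒪 W
  obtain ⟨i⟩ : Nonempty (Module.Free.ChooseBasisIndex 𝒪 W) := by
    by_contra hcon
    rw [not_nonempty_iff] at hcon
    apply hy0
    funext s t
    have h1 : (⟨y s t, hyW s t⟩ : W) = 0 := b.repr.injective (Subsingleton.elim _ _)
    exact congrArg Subtype.val h1
  let f : W →ₗ[𝒪] 𝒪 := b.coord i
  let e : Pairs 𝒪 := fun s t => f ⟨y s t, hyW s t⟩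
  have he : ∀ s t, e s t = f ⟨y s t, hyW s t⟩ := fun _ _ => rfl
  -- linear relations pass to `e`
  have hsl : ∀ (g : GL (Fin 2) ℚ) (s t : Cusp), slash g e s t =
      f ⟨slash g y s t, hyW _ _⟩ := fun g s t => rfl
  have hsum : ∀ (ι : Type) [Fintype ι] (g : ι → GL (Fin 2) ℚ) (c : 𝒪),
      (∑ i, slash (g i) y = j c • y) → ∑ i, slash (g i) e = c • e := by
    intro ι _ g c h
    funext s t
    rw [Finset.sum_apply, Finset.sum_apply]
    have h1 : (∑ i, (⟨slash (g i) y s t, hyW _ _⟩ : W)) = c • ⟨y s t, hyW s t⟩ := by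
      apply Subtype.ext
      rw [Submodule.coe_sum, Submodule.coe_smul]
      have h2 := congrFun (congrFun h s) t
      rw [Finset.sum_apply, Finset.sum_apply] at h2
      exact h2
    have h3 := congrArg f h1
    rw [map_sum, map_smul] at h3
    exact h3
  refine ⟨e, ?_, ⟨?_, ?_⟩, ?_, ?_, ?_⟩
  · -- primitivity
    intro c hc z hz
    have h1 : ∀ w (hw : w ∈ W), f ⟨w, hw⟩ ∈ maximalIdeal 𝒪 := by
      intro w hw
      refine Submodule.span_induction (p := fun w hw => f ⟨w, hw⟩ ∈ maximalIdeal 𝒪)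
        ?_ ?_ ?_ ?_ hw
      · rintro w ⟨g, rfl⟩
        have h2 : e (toQ g • ∞) (toQ g • cusp0) = c * z (toQ g • ∞) (toQ g • cusp0) :=
          congrFun (congrFun hz _) _
        have h3 : f ⟨y (toQ g • ∞) (toQ g • cusp0), hyW _ _⟩ ∈ maximalIdeal 𝒪 := by
          rw [← he, h2]
          exact Ideal.mul_mem_right _ _ hc
        exact h3
      · have : f ⟨0, zero_mem W⟩ = 0 := map_zero f
        rw [this]; exact zero_mem _
      · intro v w hv hw h4 h5
        have : f ⟨v + w, add_mem hv hw⟩ = f ⟨v, hv⟩ + f ⟨w, hw⟩ := map_add f ⟨v, hv⟩ ⟨w, hw⟩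
        rw [this]; exact add_mem h4 h5
      · intro a w hw h4
        have : f ⟨a • w, W.smul_mem a hw⟩ = a • f ⟨w, hw⟩ := map_smul f a ⟨w, hw⟩
        rw [this]; exact Ideal.mul_mem_left _ _ h4
    have h2 := h1 (b i) (b i).2
    have h3 : f ⟨(b i : K), (b i).2⟩ = 1 := by simp [f]
    rw [h3] at h2
    exact (IsLocalRing.mem_maximalIdeal _).mp h2 isUnit_one
  · intro s t r
    have h1 : (⟨y s t, hyW s t⟩ : W) + ⟨y t r, hyW t r⟩ = ⟨y s r, hyW s r⟩ :=
      Subtype.ext (hy.1 s t r)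
    rw [he, he, he, ← h1, map_add]
  · intro γ hγ
    funext s t
    rw [hsl]
    have h1 : (⟨slash (toQ γ) y s t, hyW _ _⟩ : W) = ⟨y s t, hyW s t⟩ := by
      apply Subtype.ext
      exact congrFun (congrFun (hy.2 γ hγ) s) t
    rw [h1]
  · intro g c h
    have := hsum (Fin 1) (fun _ => g) c (by simpa using h)
    simpa using this
  · intro ℓ c h
    rw [heckeT_apply, heckeU_apply, degen_apply] at h
    rw [heckeT_apply, heckeU_apply, degen_apply]
    have h1 := hsum (Option (Finset.range ℓ)) (fun o => o.elim (diagMat ℓ) fun i => heckeMat ℓ i) c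
      (by
        rw [Fintype.sum_option]
        simp only [Option.elim]
        rw [Finset.sum_coe_sort (Finset.range ℓ) (fun i => slash (heckeMat ℓ (i : ℤ)) y), add_comm]
        exact h)
    rw [Fintype.sum_option] at h1
    simp only [Option.elim] at h1
    rw [Finset.sum_coe_sort (Finset.range ℓ) (fun i => slash (heckeMat ℓ (i : ℤ)) e),
      add_comm] at h1
    exact h1
  · intro ℓ c h
    rw [heckeU_apply] at h ⊢
    have h1 := hsum (Finset.range ℓ) (fun i => heckeMat ℓ i) c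
      (by
        rw [Finset.sum_coe_sort (Finset.range ℓ) (fun i => slash (heckeMat ℓ (i : ℤ)) y)]
        exact h)
    rw [Finset.sum_coe_sort (Finset.range ℓ) (fun i => slash (heckeMat ℓ (i : ℤ)) e)] at h1
    exact h1

/-- The primitive eigenvector at the conductor. -/
theorem PTData.exists_prim_vec {a : ℕ → 𝒪} {S : Set ℕ} {N : ℕ} [NeZero N] {ε : ℤ}
    (h : PTData j a S N ε) (hj : Function.Injective j) (u : ℕ → 𝒪) :
    ∃ e : Pairs 𝒪, Vec N ε a u ∅ e ∧ Prim e := by
  obtain ⟨y, hy0, hy, -⟩ := h.line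
  obtain ⟨e, he1, he2, he3, he4, -⟩ := exists_prim_functional hj (CEig.mem_MS hy) hy0
  refine ⟨e, ⟨mem_sgnMS.mpr ⟨he2, ?_⟩, fun ℓ hℓ hℓN => he4 ℓ _ (h.eig y hy ℓ hℓ hℓN),
    fun r hr => absurd hr (Finset.notMem_empty r)⟩, he1⟩
  exact he3 jMat (ε : 𝒪) (by rw [map_intCast]; exact CEig.sgn hy)

end descent

end Fermat.Agent.RT.Num
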