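import Fermat.Agent.RT.Num.Main
import Fermat.Agent.RT.Num.Descent

/-!
# Numerical assembly: `R_Σ → heckeLocal(N_Σ)` is injective (team RT, helper41)
-/

set_option autoImplicit false
set_option linter.unusedSectionVars false

open Matrix Matrix.SpecialLinearGroup CongruenceSubgroup IsLocalRing
open scoped MatrixGroups OnePoint

noncomputable section

namespace Fermat.Agent.RT.Num

open Fermat.Agent.LR Fermat.Agent.LR.PS Fermat.Agent.RT.Form Fermat.Agent.RT.MSHecke CuspForm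
  Fermat.Agent.RT.Loc Fermat.Agent.RT.NC

section U

variable {𝒪 : Type} [CommRing 𝒪] [IsDomain 𝒪] [IsDiscreteValuationRing 𝒪]
  {K : Type*} [Field K] [CharZero K] {j : 𝒪 →+* K} {a t u : ℕ → 𝒪} {S : Set ℕ} {ε : ℤ}

theorem mapCoeff_mem_CEig {M : ℕ} {m : Pairs 𝒪} (hm : m ∈ sgnMS 𝒪 ε (Gamma0 M))
    (hT : ∀ ℓ : ℕ, ℓ.Prime → ℓ ∉ S → heckeT ℓ m = a ℓ • m) :
    mapCoeff j m ∈ CEig j a S M ε := by
  obtain ⟨h1, h2⟩ := mem_sgnMS.mp hm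
  refine mem_CEig.mpr ⟨mem_sgnMS.mpr ⟨mapCoeff_mem j h1, ?_⟩, fun ℓ hℓ hℓS => ?_⟩
  · rw [← mapCoeff_slash, h2, IharaInj.mapCoeff_smul, map_intCast]
  · rw [← mapCoeff_heckeT, hT ℓ hℓ hℓS, IharaInj.mapCoeff_smul]

theorem isUnit_natCast {p q : ℕ} (hp : p.Prime) (hp𝒪 : (p : 𝒪) ∈ maximalIdeal 𝒪) (hq : q.Prime)
    (hqp : q ≠ p) : IsUnit (q : 𝒪) := by
  by_contra hn
  have h1 := (IsLocalRing.mem_maximalIdeal (q : 𝒪)).mpr hn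
  obtain ⟨b, c, hbc⟩ : IsCoprime (q : ℤ) (p : ℤ) :=
    Nat.isCoprime_iff_coprime.mpr ((Nat.coprime_primes hq hp).mpr hqp)
  have h2 : (1 : 𝒪) ∈ maximalIdeal 𝒪 := by
    have h3 := congrArg (Int.cast : ℤ → 𝒪) hbc
    push_cast at h3
    rw [← h3]
    exact add_mem (Ideal.mul_mem_left _ _ h1) (Ideal.mul_mem_left _ _ hp𝒪)
  exact (IsLocalRing.mem_maximalIdeal _).mp h2 isUnit_one

/-- `U_q = 0` on the eigenspace in the localised module. -/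
theorem PTData.heckeU_zero {N B : ℕ} (h : PTData j a S N ε) (hj : Function.Injective j)
    (hB : B ≠ 0) (hNB : N ∣ B) (hBS : ∀ r : ℕ, r.Prime → r ∣ B → r ∈ S) (hs : Sc j a S B ε)
    {Q : Finset ℕ} (hQ : Adm S B Q) {q : ℕ} (hq : q ∈ Q) (hqu : IsUnit (q : 𝒪)) {m : Pairs 𝒪}
    (hm : m ∈ sgnMS 𝒪 ε (Gamma0 (B * ∏ r ∈ Q, r ^ 2)))
    (hT : ∀ ℓ : ℕ, ℓ.Prime → ℓ ∉ S → heckeT ℓ m = a ℓ • m)
    (hn : m ∈ nilSub (heckeU q - (0 : 𝒪) • LinearMap.id : Module.End 𝒪 (Pairs 𝒪))) :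
    heckeU q m = 0 := by
  have hQ' : Adm S B (Q.erase q) := fun r hr => hQ r (Finset.mem_of_mem_erase hr)
  have hlev : B * ∏ r ∈ Q, r ^ 2 = (B * ∏ r ∈ Q.erase q, r ^ 2) * q ^ 2 := by
    rw [← prod_insert_sq (Finset.notMem_erase q Q), Finset.insert_erase hq]
  have hy := mapCoeff_mem_CEig (j := j) hm hT
  rw [hlev] at hy
  obtain ⟨hqp, hqB, hqS⟩ := hQ q hq
  have hc := h.heckeU_cubic (hQ'.prod_ne_zero hB) (hNB.trans (Dvd.intro _ rfl)) hqp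
    (fun hd => (hQ'.dvd hqp hd).elim hqB (Finset.notMem_erase q Q)) hqS
    (fun r => hQ'.mem_S hBS r) (h.sc hB hNB hBS hs _ hQ') hy
  rw [zero_smul, sub_zero] at hn
  exact heckeU_eq_zero_of_nil hj hqu hn hc

/-- `U_p = A` on the eigenspace in the localised module. -/
theorem PTData.heckeU_unit {N : ℕ} (h : PTData j a S N ε) (hj : Function.Injective j)
    (hN : N ≠ 0) (hNS : ∀ r : ℕ, r.Prime → r ∣ N → r ∈ S)
    {Q : Finset ℕ} {p : ℕ} (hp : p.Prime) (hpN : ¬ p ∣ N) (hpS : p ∈ S)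
    (hQ : Adm S (N * p) Q) (hp𝒪 : (p : 𝒪) ∈ maximalIdeal 𝒪)
    {A : 𝒪} (hAu : IsUnit A) (hA : A ^ 2 - a p * A + p = 0) {m : Pairs 𝒪}
    (hm : m ∈ sgnMS 𝒪 ε (Gamma0 (N * p * ∏ r ∈ Q, r ^ 2)))
    (hT : ∀ ℓ : ℕ, ℓ.Prime → ℓ ∉ S → heckeT ℓ m = a ℓ • m)
    (hn : m ∈ nilSub (heckeU p - A • LinearMap.id : Module.End 𝒪 (Pairs 𝒪))) :
    heckeU p m = A • m := by
  have hQ' : Adm S N Q := fun r hr => ⟨(hQ r hr).1, fun hd => (hQ r hr).2.1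
    (Dvd.dvd.mul_right hd _), (hQ r hr).2.2⟩
  have hlev : N * p * ∏ r ∈ Q, r ^ 2 = (N * ∏ r ∈ Q, r ^ 2) * p := by ring
  have hy := mapCoeff_mem_CEig (j := j) hm hT
  rw [hlev] at hy
  have hc := h.heckeU_quadratic (hQ'.prod_ne_zero hN) (Dvd.intro _ rfl) hp
    (fun hd => (hQ'.dvd hp hd).elim hpN fun hpQ => (hQ p hpQ).2.1 (dvd_mul_left p N)) hpS
    (fun r => hQ'.mem_S hNS r) (h.sc hN dvd_rfl hNS h.eig _ hQ') hy
  exact heckeU_eq_of_nil hj hp𝒪 hAu hA (by rw [sub_self]; exact zero_mem _) hn hc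

end U

section sigma

variable {𝒪 : Type} [CommRing 𝒪] [IsDomain 𝒪] [IsDiscreteValuationRing 𝒪]
  [IsAdicComplete (maximalIdeal 𝒪) 𝒪] [Finite (ResidueField 𝒪)] [CharZero 𝒪]
  {K : Type*} [Field K] [CharZero K] {j : 𝒪 →+* K}
  {N : ℕ} [NeZero N] {S : Set ℕ} {t a : ℕ → 𝒪}

/-- the minimal Hecke module, sign `+`. -/
abbrev Mmin (S : Set ℕ) (t : ℕ → 𝒪) (N : ℕ) : Submodule 𝒪 (Pairs 𝒪) :=
  MP S t ∅ (fun _ => 0) N 1

/-- "The minimal Hecke module is free over `R`", `R` acting through `φ : R → heckeLocal`. -/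
def MinFree (S : Set ℕ) (t : ℕ → 𝒪) (N : ℕ) [NeZero N] (θ : heckeAlgebra N 2 S →+* ResidueField 𝒪)
    {R : Type} [CommRing R] [Algebra 𝒪 R] (φ : R →ₐ[𝒪] heckeLocal N S 𝒪 θ) : Prop :=
  ∀ Φ : heckeLocal N S 𝒪 θ →ₐ[𝒪] Module.End 𝒪 (Mmin S t N),
    (∀ (ℓ : Idx S) (x : Mmin S t N),
      (Φ (heckeLocal.π N S 𝒪 θ (genS N S ℓ)) x : Pairs 𝒪) = heckeT (ℓ.1 : ℕ) x) →
    @Module.Free R (Mmin S t N) _ _
      (Module.compHom _ ((Φ.comp φ : R →ₐ[𝒪] _) : R →+* Module.End 𝒪 (Mmin S t N)))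

theorem MP_empty_eq {u u' : ℕ → 𝒪} {M : ℕ} {ε : ℤ} : MP S t ∅ u M ε = MP S t ∅ u' M ε := by
  ext x
  rw [mem_MP, mem_MP]
  simp

theorem Vec.congr_u {M : ℕ} {ε : ℤ} {u u' : ℕ → 𝒪} {x : Pairs 𝒪} (h : Vec M ε a u ∅ x) :
    Vec M ε a u' ∅ x := ⟨h.mem, h.eigT, fun r hr => absurd hr (Finset.notMem_empty r)⟩

/-- data shared by both cases -/
theorem minimal_pair {p : ℕ} [Fact p.Prime] (hp2 : p ≠ 2) (hp𝒪 : (p : 𝒪) ∈ maximalIdeal 𝒪)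
    (hNS : ∀ r : ℕ, r.Prime → r ∣ N → r ∈ S) (hg : GoodSysS S p a)
    (ht : ∀ ℓ : ℕ, ℓ.Prime → ℓ ∉ S → a ℓ - t ℓ ∈ maximalIdeal 𝒪)
    (hj : Function.Injective j) (hPT : ∀ ε : ℤ, ε = 1 ∨ ε = -1 → PTData j a S N ε)
    (θ : heckeAlgebra N 2 S →+* ResidueField 𝒪) [Fact (HasIntegralStructure N 2)]
    (hθ : ∀ ℓ : Idx S, residue 𝒪 (t ℓ.1) = θ (genS N S ℓ))
    (hred : IsReduced (heckeLocal N S 𝒪 θ))
    {R : Type} [CommRing R] [Algebra 𝒪 R] (φ : R →ₐ[𝒪] heckeLocal N S 𝒪 θ)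
    (hφ : Function.Surjective φ) (hCI : IsCI 𝒪 R) (hfree : MinFree S t N θ φ)
    {μ : heckeLocal N S 𝒪 θ →ₐ[𝒪] 𝒪}
    (hμ : ∀ ℓ : Idx S, μ (heckeLocal.π N S 𝒪 θ (genS N S ℓ)) = a ℓ.1) (u : ℕ → 𝒪) :
    ∃ e e' : Pairs 𝒪, Vec N 1 a u ∅ e ∧ Vec N (-1) a u ∅ e' ∧ Prim e ∧ Prim e' ∧
      brk N e e' ≠ 0 ∧
      Module.length 𝒪 (RingHom.ker (μ.comp φ)).Cotangent = Ring.ord 𝒪 (brk N e e') := by
  obtain ⟨e, he, hep⟩ := (hPT 1 (Or.inl rfl)).exists_prim_vec hj (fun _ => (0 : 𝒪))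
  obtain ⟨e', he', hep'⟩ := (hPT (-1) (Or.inr rfl)).exists_prim_vec hj (fun _ => (0 : 𝒪))
  obtain ⟨h1, h2⟩ := minimal_level θ hp2 hp𝒪 hNS
    (fun r hr => absurd hr (Finset.notMem_empty r)) hg hθ ht hred φ hφ hCI hfree hμ hj
    (fun ε hε => by
      obtain ⟨y, -, -, hy⟩ := (hPT ε hε).line
      exact ⟨y, fun m hm hT => hy _ (mapCoeff_mem_CEig (mem_MP.mp hm).1 hT)⟩)
    he he' hep hep'
  exact ⟨e, e', he.congr_u, he'.congr_u, hep, hep', h1, h2⟩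

theorem ord_prod (Q : Finset ℕ) (c : ℕ → 𝒪) (hc : ∀ q ∈ Q, c q ≠ 0) :
    Ring.ord 𝒪 (∏ q ∈ Q, c q) = ∑ q ∈ Q, Ring.ord 𝒪 (c q) := by
  induction Q using Finset.induction_on with
  | empty => simp
  | insert q Q hq ih =>
    rw [Finset.prod_insert hq, Finset.sum_insert hq,
      ← ih fun r hr => hc r (Finset.mem_insert_of_mem hr), Ring.ord_mul]
    rw [mem_nonZeroDivisors_iff_ne_zero, Finset.prod_ne_zero_iff]
    exact fun r hr => hc r (Finset.mem_insert_of_mem hr)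

/-- `c_q = (q-1)((q+1)²-a_q²)`. -/
abbrev cq (a : ℕ → 𝒪) (q : ℕ) : 𝒪 := ((q : 𝒪) - 1) * ((q + 1) ^ 2 - a q ^ 2)

theorem PTData.cq_ne_zero {ε : ℤ} (h : PTData j a S N ε) {q : ℕ} (hq : q.Prime)
    (hqN : ¬ q ∣ N) : cq a q ≠ 0 := by
  refine mul_ne_zero ?_ ?_
  · rw [sub_ne_zero]
    exact_mod_cast hq.one_lt.ne'
  · intro h0
    apply h.ne q hq hqN
    have := congrArg j h0
    rw [map_sub, map_pow, map_pow, map_add, map_natCast, map_one, map_zero, sub_eq_zero] at this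
    exact this.symm

/-- **Main theorem, no step at `p`.** -/
theorem injective_sigma {p : ℕ} [Fact p.Prime] (hp2 : p ≠ 2) (hp𝒪 : (p : 𝒪) ∈ maximalIdeal 𝒪)
    (hNS : ∀ r : ℕ, r.Prime → r ∣ N → r ∈ S) (hg : GoodSysS S p a)
    (ht : ∀ ℓ : ℕ, ℓ.Prime → ℓ ∉ S → a ℓ - t ℓ ∈ maximalIdeal 𝒪)
    (hj : Function.Injective j) (hPT : ∀ ε : ℤ, ε = 1 ∨ ε = -1 → PTData j a S N ε)
    -- minimal level
    (θ : heckeAlgebra N 2 S →+* ResidueField 𝒪) [Fact (HasIntegralStructure N 2)]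
    (hθ : ∀ ℓ : Idx S, residue 𝒪 (t ℓ.1) = θ (genS N S ℓ))
    (hred : IsReduced (heckeLocal N S 𝒪 θ))
    {R : Type} [CommRing R] [Algebra 𝒪 R] (φ : R →ₐ[𝒪] heckeLocal N S 𝒪 θ)
    (hφ : Function.Surjective φ) (hCI : IsCI 𝒪 R) (hfree : MinFree S t N θ φ)
    {μ : heckeLocal N S 𝒪 θ →ₐ[𝒪] 𝒪}
    (hμ : ∀ ℓ : Idx S, μ (heckeLocal.π N S 𝒪 θ (genS N S ℓ)) = a ℓ.1)
    -- final level
    (Q : Finset ℕ) (hQ : Adm S N Q) (hQp : ∀ q ∈ Q, q ≠ p) {M : ℕ} [NeZero M]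
    (hM : M = N * ∏ q ∈ Q, q ^ 2)
    (θ' : heckeAlgebra M 2 S →+* ResidueField 𝒪) [Fact (HasIntegralStructure M 2)]
    (hθ' : ∀ ℓ : Idx S, residue 𝒪 (t ℓ.1) = θ' (genS M S ℓ))
    {R' : Type} [CommRing R'] [IsLocalRing R'] [IsNoetherianRing R']
    [IsAdicComplete (maximalIdeal R') R'] [Algebra 𝒪 R'] (φ' : R' →ₐ[𝒪] heckeLocal M S 𝒪 θ')
    (hφ' : Function.Surjective φ') {μ' : heckeLocal M S 𝒪 θ' →ₐ[𝒪] 𝒪}
    (hμ' : ∀ ℓ : Idx S, μ' (heckeLocal.π M S 𝒪 θ' (genS M S ℓ)) = a ℓ.1)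
    -- Galois side
    (hΦ : Module.length 𝒪 (RingHom.ker (μ'.comp φ')).Cotangent ≤
      Module.length 𝒪 (RingHom.ker (μ.comp φ)).Cotangent + ∑ q ∈ Q, Ring.ord 𝒪 (cq a q)) :
    Function.Injective φ' := by
  have hp : p.Prime := Fact.out
  subst hM
  obtain ⟨e, e', he, he', hep, hep', hne, hlen⟩ := minimal_pair hp2 hp𝒪 hNS hg ht hj hPT θ hθ hred
    φ hφ hCI hfree hμ (fun _ => (0 : 𝒪))
  obtain ⟨x, y, hx, hy, hxp, hyp, hxy⟩ := exists_pair hp hp𝒪 hg.goodSys (NeZero.ne N)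
    (fun r hr => absurd hr (Finset.notMem_empty r)) he he' hep hep' Q
    (fun q hq => ⟨(hQ q hq).1, (hQ q hq).2.1, hQp q hq, rfl⟩)
  have hcne : ∀ q ∈ Q, cq a q ≠ 0 := fun q hq =>
    (hPT 1 (Or.inl rfl)).cq_ne_zero (hQ q hq).1 (hQ q hq).2.1
  rw [Finset.empty_union] at hx hy
  have hP2 : ∀ r ∈ Q, r.Prime ∧ r ∣ N * ∏ q ∈ Q, q ^ 2 := fun r hr => ⟨(hQ r hr).1,
    Dvd.dvd.mul_left ((dvd_pow_self r two_ne_zero).trans
      (Finset.dvd_prod_of_mem (fun q => q ^ 2) hr)) _⟩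
  refine injective_of_level θ' hp2 hp𝒪 (fun r => hQ.mem_S hNS r) hP2 hg hθ' ht φ' hφ' hμ' hj ?_
    hx hy hxp hyp ?_ ?_
  · intro ε hε
    obtain ⟨y₁, hy₁⟩ := (hPT ε hε).line_final (NeZero.ne N) hNS Q hQ
    refine ⟨y₁, fun m hm hT => ?_⟩
    obtain ⟨hm1, -, hm3⟩ := mem_MP.mp hm
    refine hy₁ _ (mapCoeff_mem_CEig hm1 hT) fun q hq => ?_
    rw [← mapCoeff_heckeU, (hPT ε hε).heckeU_zero hj (NeZero.ne N) dvd_rfl hNS (hPT ε hε).eig hQ hq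
      (isUnit_natCast hp hp𝒪 (hQ q hq).1 (hQp q hq)) hm1 hT (hm3 q hq), map_zero]
  · rw [hxy]
    exact mul_ne_zero (Finset.prod_ne_zero_iff.mpr hcne) hne
  · rw [hxy, Ring.ord_mul _ (mem_nonZeroDivisors_of_ne_zero hne), add_comm]
    rw [hlen] at hΦ
    have := ord_prod Q (cq a) hcne
    rw [show (∏ q ∈ Q, (((q : 𝒪) - 1) * ((q + 1) ^ 2 - a q ^ 2))) = ∏ q ∈ Q, cq a q from rfl, this]
    exact hΦ

/-- **Main theorem, with a step at `p`.** -/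
theorem injective_sigmaP {p : ℕ} [Fact p.Prime] (hp2 : p ≠ 2) (hp𝒪 : (p : 𝒪) ∈ maximalIdeal 𝒪)
    (hNS : ∀ r : ℕ, r.Prime → r ∣ N → r ∈ S) (hg : GoodSysS S p a)
    (ht : ∀ ℓ : ℕ, ℓ.Prime → ℓ ∉ S → a ℓ - t ℓ ∈ maximalIdeal 𝒪)
    (hj : Function.Injective j) (hPT : ∀ ε : ℤ, ε = 1 ∨ ε = -1 → PTData j a S N ε)
    -- minimal level
    (θ : heckeAlgebra N 2 S →+* ResidueField 𝒪) [Fact (HasIntegralStructure N 2)]
    (hθ : ∀ ℓ : Idx S, residue 𝒪 (t ℓ.1) = θ (genS N S ℓ))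
    (hred : IsReduced (heckeLocal N S 𝒪 θ))
    {R : Type} [CommRing R] [Algebra 𝒪 R] (φ : R →ₐ[𝒪] heckeLocal N S 𝒪 θ)
    (hφ : Function.Surjective φ) (hCI : IsCI 𝒪 R) (hfree : MinFree S t N θ φ)
    {μ : heckeLocal N S 𝒪 θ →ₐ[𝒪] 𝒪}
    (hμ : ∀ ℓ : Idx S, μ (heckeLocal.π N S 𝒪 θ (genS N S ℓ)) = a ℓ.1)
    -- the step at `p`
    (hpN : ¬ p ∣ N) (hpS : p ∈ S) {A : 𝒪} (hAu : IsUnit A) (hA : A ^ 2 - a p * A + p = 0)
    (hA1 : A ^ 2 - 1 ≠ 0)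
    -- final level
    (Q : Finset ℕ) (hQ : Adm S (N * p) Q) {M : ℕ} [NeZero M]
    (hM : M = N * p * ∏ q ∈ Q, q ^ 2)
    (θ' : heckeAlgebra M 2 S →+* ResidueField 𝒪) [Fact (HasIntegralStructure M 2)]
    (hθ' : ∀ ℓ : Idx S, residue 𝒪 (t ℓ.1) = θ' (genS M S ℓ))
    {R' : Type} [CommRing R'] [IsLocalRing R'] [IsNoetherianRing R']
    [IsAdicComplete (maximalIdeal R') R'] [Algebra 𝒪 R'] (φ' : R' →ₐ[𝒪] heckeLocal M S 𝒪 θ')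
    (hφ' : Function.Surjective φ') {μ' : heckeLocal M S 𝒪 θ' →ₐ[𝒪] 𝒪}
    (hμ' : ∀ ℓ : Idx S, μ' (heckeLocal.π M S 𝒪 θ' (genS M S ℓ)) = a ℓ.1)
    -- Galois side
    (hΦ : Module.length 𝒪 (RingHom.ker (μ'.comp φ')).Cotangent ≤
      Module.length 𝒪 (RingHom.ker (μ.comp φ)).Cotangent +
        (Ring.ord 𝒪 (A ^ 2 - 1) + ∑ q ∈ Q, Ring.ord 𝒪 (cq a q))) :
    Function.Injective φ' := by
  have hp : p.Prime := Fact.out
  have hN0 := NeZero.ne N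
  have hNp0 : N * p ≠ 0 := mul_ne_zero hN0 hp.ne_zero
  have hpQ : p ∉ Q := fun h => (hQ p h).2.1 (dvd_mul_left p N)
  have hQp : ∀ q ∈ Q, q ≠ p := fun q hq h => hpQ (h ▸ hq)
  have hQN : ∀ q ∈ Q, ¬ q ∣ N := fun q hq hd => (hQ q hq).2.1 (Dvd.dvd.mul_right hd _)
  have hNpS : ∀ r : ℕ, r.Prime → r ∣ N * p → r ∈ S := by
    intro r hr hd
    rcases (Nat.Prime.dvd_mul hr).mp hd with h1 | h1
    · exact hNS r hr h1
    · rw [(Nat.prime_dvd_prime_iff_eq hr hp).mp h1]; exact hpS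
  subst hM
  set u : ℕ → 𝒪 := fun r => if r = p then A else 0 with hu
  have hup : u p = A := if_pos rfl
  have huq : ∀ q ∈ Q, u q = 0 := fun q hq => if_neg (hQp q hq)
  obtain ⟨e, e', he, he', hep, hep', hne, hlen⟩ := minimal_pair hp2 hp𝒪 hNS hg ht hj hPT θ hθ hred
    φ hφ hCI hfree hμ u
  obtain ⟨x, y, hx, hy, hxp, hyp, hxy⟩ := exists_pairP hp hp𝒪 hg.goodSys hN0 hpN
    (fun r hr => absurd hr (Finset.notMem_empty r)) he he' hep hep' Q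
    (fun q hq => ⟨(hQ q hq).1, hQN q hq, hQp q hq, huq q hq⟩) (by rw [hup]; exact hA)
  have hcne : ∀ q ∈ Q, cq a q ≠ 0 := fun q hq =>
    (hPT 1 (Or.inl rfl)).cq_ne_zero (hQ q hq).1 (hQN q hq)
  -- `2A - a_p` is a unit
  have h2A : IsUnit (2 * A - a p) := by
    by_contra hn
    have h3 := (IsLocalRing.mem_maximalIdeal _).mpr hn
    have h4 : A * A ∈ maximalIdeal 𝒪 := by
      have e1 : A * A = A * (2 * A - a p) - (A ^ 2 - a p * A + p) + p := by ring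
      rw [e1, hA, sub_zero]
      exact add_mem (Ideal.mul_mem_left _ _ h3) hp𝒪
    exact (IsLocalRing.mem_maximalIdeal _).mp h4 (hAu.mul hAu)
  have hpset : insert p (∅ : Finset ℕ) ∪ Q = insert p Q := by
    ext r; simp
  rw [hpset] at hx hy
  have hP2 : ∀ r ∈ insert p Q, r.Prime ∧ r ∣ N * p * ∏ q ∈ Q, q ^ 2 := by
    intro r hr
    rcases Finset.mem_insert.mp hr with rfl | hr
    · exact ⟨hp, Dvd.dvd.mul_right (dvd_mul_left _ _) _⟩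
    · exact ⟨(hQ r hr).1, Dvd.dvd.mul_left ((dvd_pow_self r two_ne_zero).trans
        (Finset.dvd_prod_of_mem (fun q => q ^ 2) hr)) _⟩
  refine injective_of_level θ' hp2 hp𝒪 (fun r => hQ.mem_S hNpS r) hP2 hg hθ' ht φ' hφ' hμ' hj ?_
    hx hy hxp hyp ?_ ?_
  · intro ε hε
    obtain ⟨y₁, hy₁⟩ := (hPT ε hε).line_finalP hN0 hNS hp hpN hpS Q hQ (j A)
    refine ⟨y₁, fun m hm hT => ?_⟩
    obtain ⟨hm1, -, hm3⟩ := mem_MP.mp hm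
    refine hy₁ _ (mapCoeff_mem_CEig hm1 hT) (fun q hq => ?_) ?_
    · have hn := hm3 q (Finset.mem_insert_of_mem hq)
      rw [huq q hq] at hn
      rw [← mapCoeff_heckeU, (hPT ε hε).heckeU_zero hj hNp0 (Dvd.intro _ rfl) hNpS
        ((hPT ε hε).sc_one hN0 dvd_rfl hp hpN hpS hNS (hPT ε hε).eig) hQ hq
        (isUnit_natCast hp hp𝒪 (hQ q hq).1 (hQp q hq)) hm1 hT hn, map_zero]
    · have hn := hm3 p (Finset.mem_insert_self _ _)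
      rw [hup] at hn
      rw [← mapCoeff_heckeU, (hPT ε hε).heckeU_unit hj hN0 hNS hp hpN hpS hQ hp𝒪 hAu hA hm1 hT hn,
        IharaInj.mapCoeff_smul]
  · rw [hxy, hup]
    exact mul_ne_zero (Finset.prod_ne_zero_iff.mpr hcne)
      (mul_ne_zero (mul_ne_zero hA1 h2A.ne_zero) hne)
  · have h5 : (2 * A - a p) ≠ 0 := h2A.ne_zero
    rw [hxy, hup, Ring.ord_mul _ (mem_nonZeroDivisors_of_ne_zero
      (mul_ne_zero (mul_ne_zero hA1 h5) hne)), Ring.ord_mul _ (mem_nonZeroDivisors_of_ne_zero hne),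
      Ring.ord_mul_of_isUnit_right h2A]
    rw [hlen] at hΦ
    have := ord_prod Q (cq a) hcne
    rw [show (∏ q ∈ Q, (((q : 𝒪) - 1) * ((q + 1) ^ 2 - a q ^ 2))) = ∏ q ∈ Q, cq a q from rfl, this]
    refine hΦ.trans (le_of_eq ?_)
    abel

end sigma

end Fermat.Agent.RT.Num
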