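import Fermat.Agent.RT.Num.Descent
import Fermat.Agent.RT.PointSC

/-!
# Numerical assembly: the eigenvalues of a newform lie in `𝒪` (team RT, helper41)

`exists_coeff`: if almost all eigenvalues of a newform `g` lie in the discrete valuation ring
`j(𝒪) ⊂ ℂ` then all `a_ℓ(g)`, `ℓ ∤ N`, do.
-/

set_option autoImplicit false
set_option linter.unusedSectionVars false

open Matrix Matrix.SpecialLinearGroup CongruenceSubgroup IsLocalRing ModularFormClass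
open scoped MatrixGroups OnePoint

noncomputable section

namespace Fermat.Agent.RT.Num

open Fermat.Agent.LR Fermat.Agent.LR.PS Fermat.Agent.RT.Form Fermat.Agent.RT.MSHecke
  Fermat.Agent.RT.Point Fermat.Agent.Newform

variable {𝒪 : Type*} [CommRing 𝒪] [IsDomain 𝒪] [IsDiscreteValuationRing 𝒪]

/-- **All eigenvalues of a newform at primes not dividing the level lie in `𝒪`.** -/
theorem exists_coeff {N : ℕ} [NeZero N] {g : CuspForm (Gamma0 N) 2} (hg : g.IsNewform)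
    {j : 𝒪 →+* ℂ} (hj : Function.Injective j) {S : Set ℕ} (hS : S.Finite)
    (hNS : ∀ q : ℕ, q.Prime → q ∣ N → q ∈ S) {t : ℕ → 𝒪}
    (ht : ∀ ℓ : ℕ, ℓ.Prime → ℓ ∉ S → j (t ℓ) = qCoeff ⇑g ℓ) :
    ∃ a : ℕ → 𝒪, (∀ ℓ : ℕ, ℓ.Prime → ¬ ℓ ∣ N → j (a ℓ) = qCoeff ⇑g ℓ) ∧
      ∀ ℓ : ℕ, ℓ.Prime → ℓ ∉ S → a ℓ = t ℓ := by
  classical
  have hone : (1 : ℤ) * 1 = 1 := one_mul 1
  have hy : newSym g 1 ∈ CEig j t S N 1 := by
    rw [mem_CEig_iff (c := qCoeff ⇑g) ht]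
    refine ⟨eigMS_mono dvd_rfl (fun q hq h => ?_) (newSym_mem_eigMS hg 1), ?_⟩
    · exact hNS q hq (by simpa [badSet] using h)
    · exact (mem_sgnMS.mp (newSym_mem g hone)).2
  obtain ⟨x, hx1, hx2, hx3, hx4, -⟩ := exists_prim_functional hj (CEig.mem_MS hy)
    (newSym_ne_zero hg 1)
  obtain ⟨s, r, hu⟩ := hx1.exists_isUnit
  obtain ⟨u, hu⟩ := hu
  have hxS : mapCoeff j x ∈ eigMS N S (qCoeff ⇑g) := by
    refine mem_eigMS.mpr ⟨mapCoeff_mem j hx2, fun ℓ hℓ hℓS => ?_⟩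
    rw [← mapCoeff_heckeT, hx4 ℓ (t ℓ) ((mem_CEig.mp hy).2 ℓ hℓ hℓS), IharaInj.mapCoeff_smul,
      ht ℓ hℓ hℓS]
  have hne := nonEis_of_isNewform hg hS (NeZero.ne N) hNS
  have key : ∀ ℓ : ℕ, ℓ.Prime → ¬ ℓ ∣ N →
      j (heckeT ℓ x s r * ((u⁻¹ : 𝒪ˣ) : 𝒪)) = qCoeff ⇑g ℓ := by
    intro ℓ hℓ hℓN
    have h1 := heckeT_eq_of_mem hg hS hNS hne hxS hℓ hℓN
    rw [← mapCoeff_heckeT] at h1
    have h2 := congrFun (congrFun h1 s) r
    have h3 : j (heckeT ℓ x s r) = qCoeff ⇑g ℓ * j (x s r) := h2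
    rw [map_mul, h3, ← hu, mul_assoc, ← map_mul, Units.mul_inv, map_one, mul_one]
  refine ⟨fun ℓ => heckeT ℓ x s r * ((u⁻¹ : 𝒪ˣ) : 𝒪), key, fun ℓ hℓ hℓS => ?_⟩
  exact hj ((key ℓ hℓ fun h => hℓS (hNS ℓ hℓ h)).trans (ht ℓ hℓ hℓS).symm)

end Fermat.Agent.RT.Num
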