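import Fermat.Agent.RT.FormMain
import Fermat.Agent.RT.Act
import Fermat.Agent.RT.HeckeLocalLift
import Fermat.Agent.RT.Num.Gen

/-!
# Numerical assembly: the Hecke module of a level (team RT, helper41)

* `fam S t P u`: the operators `T_ℓ - t_ℓ` (`ℓ ∉ S`), `U_r - u_r` (`r ∈ P`);
* `MP S t P u M ε`: the localised module;
* `exists_actions`: `heckeLocal M S 𝒪 θ` acts on the two signs, adjointly for `brk`.
-/

set_option autoImplicit false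
set_option linter.unusedSectionVars false

open Matrix Matrix.SpecialLinearGroup CongruenceSubgroup IsLocalRing
open scoped MatrixGroups OnePoint

noncomputable section

namespace Fermat.Agent.RT.Num

open Fermat.Agent.LR Fermat.Agent.LR.PS Fermat.Agent.RT.Form Fermat.Agent.RT.MSHecke CuspForm
  Fermat.Agent.RT.Loc

section induction

variable (M : ℕ) [NeZero M] (S : Set ℕ)
  (𝒪 : Type) [CommRing 𝒪] [IsDomain 𝒪] [IsDiscreteValuationRing 𝒪]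
  [IsAdicComplete (maximalIdeal 𝒪) 𝒪]
  (θ : heckeAlgebra M 2 S →+* ResidueField 𝒪)
  [Fact (HasIntegralStructure M 2)]

/-- Induction principle for `heckeLocal`. -/
theorem heckeLocal_induction {q : heckeLocal M S 𝒪 θ → Prop}
    (h1 : ∀ c : 𝒪, q (algebraMap 𝒪 _ c))
    (h2 : ∀ ℓ : Idx S, q (heckeLocal.π M S 𝒪 θ (genS M S ℓ)))
    (hadd : ∀ x y, q x → q y → q (x + y)) (hmul : ∀ x y, q x → q y → q (x * y)) (x) : q x := by
  have hπ : ∀ P : MvPolynomial (Idx S) ℤ, q (heckeLocal.π M S 𝒪 θ (evForms M S P)) := by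
    intro P
    induction P using MvPolynomial.induction_on with
    | C n =>
      have e1 : evForms M S (MvPolynomial.C n) = (n : heckeAlgebra M 2 S) := by
        have := AlgHom.commutes (evForms M S) n
        rw [eq_intCast] at this
        exact this
      have := h1 (n : 𝒪)
      rw [map_intCast] at this
      rw [e1, map_intCast]
      exact this
    | add P Q hP hQ => rw [map_add, map_add]; exact hadd _ _ hP hQ
    | mul_X P ℓ hP => rw [map_mul, map_mul, evForms_X]; exact hmul _ _ hP (h2 ℓ)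
  have hx : x ∈ Algebra.adjoin 𝒪 (Set.range (heckeLocal.π M S 𝒪 θ)) := by
    rw [HeckeLocalFields.adjoin_range_π M S 𝒪 θ]
    trivial
  induction hx using Algebra.adjoin_induction with
  | mem x hx =>
    obtain ⟨t, rfl⟩ := hx
    obtain ⟨P, rfl⟩ := evForms_surjective M S t
    exact hπ P
  | algebraMap c => exact h1 c
  | add x y _ _ hx hy => exact hadd _ _ hx hy
  | mul x y _ _ hx hy => exact hmul _ _ hx hy

end induction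

section fam

variable {𝒪 : Type} [CommRing 𝒪]

/-- the operators `T_ℓ - t_ℓ`, `ℓ ∉ S`, and `U_r - u_r`, `r ∈ P`. -/
def fam (S : Set ℕ) (t : ℕ → 𝒪) (P : Finset ℕ) (u : ℕ → 𝒪) :
    Idx S ⊕ P → Module.End 𝒪 (Pairs 𝒪)
  | Sum.inl ℓ => heckeT (ℓ.1 : ℕ) - t ℓ.1 • LinearMap.id
  | Sum.inr r => heckeU (r : ℕ) - u r • LinearMap.id

/-- the localised module of level `M` and sign `ε`. -/
abbrev MP (S : Set ℕ) (t : ℕ → 𝒪) (P : Finset ℕ) (u : ℕ → 𝒪) (M : ℕ) (ε : ℤ) :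
    Submodule 𝒪 (Pairs 𝒪) :=
  part (sgnMS 𝒪 ε (Gamma0 M)) (Set.range (fam S t P u))

theorem mem_MP {S : Set ℕ} {t : ℕ → 𝒪} {P : Finset ℕ} {u : ℕ → 𝒪} {M : ℕ} {ε : ℤ} {x : Pairs 𝒪} :
    x ∈ MP S t P u M ε ↔ x ∈ sgnMS 𝒪 ε (Gamma0 M) ∧
      (∀ ℓ : ℕ, ℓ.Prime → ℓ ∉ S →
        x ∈ nilSub (heckeT ℓ - t ℓ • LinearMap.id : Module.End 𝒪 (Pairs 𝒪))) ∧
      ∀ r ∈ P, x ∈ nilSub (heckeU r - u r • LinearMap.id : Module.End 𝒪 (Pairs 𝒪)) := by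
  rw [mem_part]
  constructor
  · rintro ⟨h1, h2⟩
    exact ⟨h1, fun ℓ hℓ hℓS => h2 _ ⟨Sum.inl ⟨⟨ℓ, hℓ⟩, hℓS⟩, rfl⟩,
      fun r hr => h2 _ ⟨Sum.inr ⟨r, hr⟩, rfl⟩⟩
  · rintro ⟨h1, h2, h3⟩
    refine ⟨h1, ?_⟩
    rintro T ⟨i | i, rfl⟩
    · exact h2 _ i.1.2 i.2
    · exact h3 _ i.2

end fam

section DVR

variable {𝒪 : Type} [CommRing 𝒪] [IsDomain 𝒪] [IsDiscreteValuationRing 𝒪]

/-- an eigenvector with eigenvalue congruent to `d` lies in `nilSub (T - d)` -/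
theorem mem_nilSub_of_eig {X : Type*} [AddCommGroup X] [Module 𝒪 X] {T : Module.End 𝒪 X}
    {c d : 𝒪} {x : X} (h : T x = c • x) (hcd : c - d ∈ maximalIdeal 𝒪) :
    x ∈ nilSub (T - d • LinearMap.id) := by
  intro b hb
  have h1 : ∀ n : ℕ, ((T - d • LinearMap.id : Module.End 𝒪 X) ^ n) x = ((c - d) ^ n) • x := by
    intro n
    induction n with
    | zero => simp
    | succ n ih =>
      rw [pow_succ, Module.End.mul_apply, LinearMap.sub_apply, LinearMap.smul_apply,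
        LinearMap.id_apply, h, ← sub_smul, map_smul, ih, smul_smul, ← pow_succ']
  obtain ⟨ϖ, hϖ⟩ := IsDiscreteValuationRing.exists_irreducible 𝒪
  obtain ⟨n, v, rfl⟩ := IsDiscreteValuationRing.eq_unit_mul_pow_irreducible hb hϖ
  rw [hϖ.maximalIdeal_eq, Ideal.mem_span_singleton] at hcd
  obtain ⟨w, hw⟩ := hcd
  refine ⟨n, ((↑v⁻¹ : 𝒪) * w ^ n) • x, ?_⟩
  rw [h1, hw, smul_smul]
  congr 1
  rw [mul_pow]
  have : (v : 𝒪) * (↑v⁻¹ : 𝒪) = 1 := Units.mul_inv v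
  linear_combination (-(ϖ ^ n * w ^ n)) * this

theorem Vec.mem_MP {M : ℕ} {ε : ℤ} {a u : ℕ → 𝒪} {P : Finset ℕ} {x : Pairs 𝒪}
    (h : Vec M ε a u P x) {S : Set ℕ} (hS : ∀ r : ℕ, r.Prime → r ∣ M → r ∈ S)
    {t : ℕ → 𝒪} (ht : ∀ ℓ : ℕ, ℓ.Prime → ℓ ∉ S → a ℓ - t ℓ ∈ maximalIdeal 𝒪) :
    x ∈ MP S t P u M ε := by
  refine Num.mem_MP.mpr ⟨h.mem, fun ℓ hℓ hℓS => ?_, fun r hr => ?_⟩
  · exact mem_nilSub_of_eig (h.eigT ℓ hℓ fun hd => hℓS (hS ℓ hℓ hd)) (ht ℓ hℓ hℓS)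
  · exact mem_nilSub_of_eig (h.eigU r hr) (by rw [sub_self]; exact zero_mem _)

/-- a primitive vector generates the rank one module of its line -/
theorem exists_smul_of_line {K : Type*} [Field K] {j : 𝒪 →+* K} (hj : Function.Injective j)
    {e m : Pairs 𝒪} (he : Prim e) {y : Pairs K} (h1 : ∃ c : K, mapCoeff j e = c • y)
    (h2 : ∃ c : K, mapCoeff j m = c • y) : ∃ b : 𝒪, m = b • e := by
  obtain ⟨c₁, h1⟩ := h1
  obtain ⟨c₂, h2⟩ := h2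
  obtain ⟨s, t, hu⟩ := he.exists_isUnit
  obtain ⟨v, hv⟩ := hu
  have hc₁ : c₁ ≠ 0 := by
    rintro rfl
    have h3 := congrFun (congrFun h1 s) t
    rw [mapCoeff_apply, ← hv] at h3
    simp only [zero_smul, Pi.zero_apply] at h3
    exact v.ne_zero (hj (by rw [h3, map_zero]))
  refine ⟨m s t * (↑v⁻¹ : 𝒪), ?_⟩
  funext s' t'
  apply hj
  have e1 : ∀ a b, j (e a b) = c₁ * y a b := fun a b => congrFun (congrFun h1 a) b
  have e2 : ∀ a b, j (m a b) = c₂ * y a b := fun a b => congrFun (congrFun h2 a) b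
  have e3 : j (↑v⁻¹ : 𝒪) * (c₁ * y s t) = 1 := by
    rw [← e1, ← hv, ← map_mul, Units.inv_mul, map_one]
  have hy : y s t ≠ 0 := by
    intro h
    rw [h, mul_zero, mul_zero] at e3
    exact zero_ne_one e3
  have e4 : ((m s t * (↑v⁻¹ : 𝒪)) • e) s' t' = (m s t * (↑v⁻¹ : 𝒪)) * e s' t' := rfl
  rw [e4, map_mul, map_mul, e1, e2, e2]
  linear_combination (-(c₂ * y s' t')) * e3

end DVR

section main

variable {𝒪 : Type} [CommRing 𝒪] [IsDomain 𝒪] [IsDiscreteValuationRing 𝒪]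
  [IsAdicComplete (maximalIdeal 𝒪) 𝒪] [Finite (ResidueField 𝒪)] [CharZero 𝒪]
variable {M : ℕ} [NeZero M] {S : Set ℕ} {t u : ℕ → 𝒪} {P : Finset ℕ}

theorem famData (hS : ∀ r : ℕ, r.Prime → r ∣ M → r ∈ S) (hP : ∀ r ∈ P, r.Prime ∧ r ∣ M) :
    FamData M (fam S t P u) := by
  refine FamData.of_isHeckeOp (NeZero.ne M) fun i => ?_
  rcases i with ℓ | r
  · exact Or.inl ⟨ℓ.1, ℓ.1.2, fun h => ℓ.2 (hS _ ℓ.1.2 h), t ℓ.1, rfl⟩
  · exact Or.inr ⟨r, (hP r r.2).1, (hP r r.2).2, u r, rfl⟩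

theorem saturated_MP (ε : ℤ) : Saturated (MP S t P u M ε) :=
  saturated_partMS _ (saturated_sgnMS ε _) _

instance finite_MP (ε : ℤ) : Module.Finite 𝒪 (MP S t P u M ε) :=
  finite_of_le_MS (NeZero.ne M) (part_sgn_le ε _)

instance free_MP (ε : ℤ) : Module.Free 𝒪 (MP S t P u M ε) :=
  free_of_le_MS (NeZero.ne M) (part_sgn_le ε _)

/-- Hecke operators preserve the localised module. -/
theorem heckeT_mem_MP (hS : ∀ r : ℕ, r.Prime → r ∣ M → r ∈ S) (hP : ∀ r ∈ P, r.Prime ∧ r ∣ M)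
    {ε : ℤ} {ℓ : ℕ} (hℓ : ℓ.Prime) (hℓM : ¬ ℓ ∣ M) {x : Pairs 𝒪} (hx : x ∈ MP S t P u M ε) :
    heckeT ℓ x ∈ MP S t P u M ε := by
  have D := famData (𝒪 := 𝒪) (t := t) (u := u) hS hP
  have hop : IsHeckeOp M (heckeT ℓ - (0 : 𝒪) • LinearMap.id : Module.End 𝒪 (Pairs 𝒪)) :=
    Or.inl ⟨ℓ, hℓ, hℓM, 0, rfl⟩
  have hfin : Module.Finite 𝒪 (sgnMS 𝒪 ε (Gamma0 M)) :=
    finite_of_le_MS (NeZero.ne M) (sgnMS_le ε _)
  have hsg : ∀ T : Module.End 𝒪 (Pairs 𝒪),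
      (∀ x ∈ MS (Gamma0 M) 𝒪, T x ∈ MS (Gamma0 M) 𝒪) →
      (∀ x ∈ MS (Gamma0 M) 𝒪, slash jMat (T x) = T (slash jMat x)) →
      ∀ x ∈ sgnMS 𝒪 ε (Gamma0 M), T x ∈ sgnMS 𝒪 ε (Gamma0 M) := by
    intro T h1 h2 x hx
    obtain ⟨h3, h4⟩ := mem_sgnMS.mp hx
    exact mem_sgnMS.mpr ⟨h1 x h3, by rw [h2 x h3, h4, map_smul]⟩
  have h0 : (heckeT ℓ - (0 : 𝒪) • LinearMap.id : Module.End 𝒪 (Pairs 𝒪)) = heckeT ℓ := by
    rw [zero_smul, sub_zero]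
  refine mem_part_of_comm (saturated_sgnMS ε _) (t := fam S t P u)
    (fun i => hsg _ (D.mem i) (D.sgn i)) (heckeT ℓ) ?_ ?_ hx
  · refine hsg _ (fun x hx => heckeT_mem_MS hℓ hℓM hx) fun x hx => ?_
    rw [heckeT_slash_jMat hx hℓ.ne_zero]
  · intro i x hx
    have hi : IsHeckeOp M (fam S t P u i) := by
      rcases i with r | r
      · exact Or.inl ⟨r.1, r.1.2, fun h => r.2 (hS _ r.1.2 h), t r.1, rfl⟩
      · exact Or.inr ⟨r, (hP r r.2).1, (hP r r.2).2, u r, rfl⟩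
    have := IsHeckeOp.comm hop hi (sgnMS_le ε _ hx)
    rwa [h0] at this

variable (θ : heckeAlgebra M 2 S →+* ResidueField 𝒪) [Fact (HasIntegralStructure M 2)]

/-- `heckeLocal` acts on the localised modules. -/
theorem exists_act_MP (hS : ∀ r : ℕ, r.Prime → r ∣ M → r ∈ S) (hP : ∀ r ∈ P, r.Prime ∧ r ∣ M)
    (ht : ∀ ℓ : Idx S, residue 𝒪 (t ℓ.1) = θ (genS M S ℓ))
    {ℓ₀ : ℕ} (hℓ₀ : ℓ₀.Prime) (hℓ₀S : ℓ₀ ∉ S) (hℓ₀M : ((ℓ₀ : ℕ) : ZMod M) = 1)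
    (hE : IsUnit (t ℓ₀ - (1 + ℓ₀))) (ε : ℤ) :
    ∃ Φ : heckeLocal M S 𝒪 θ →ₐ[𝒪] Module.End 𝒪 (MP S t P u M ε),
      ∀ (ℓ : Idx S) (x : MP S t P u M ε),
        (Φ (heckeLocal.π M S 𝒪 θ (genS M S ℓ)) x : Pairs 𝒪) = heckeT (ℓ.1 : ℕ) x := by
  have htf : Module.IsTorsionFree ℤ 𝒪 := inferInstance
  have hhop : ∀ ℓ : Idx S, hop 𝒪 M (ℓ.1 : ℕ) = heckeT (ℓ.1 : ℕ) := fun ℓ =>
    hop_of_not_dvd fun hd => ℓ.2 (hS _ ℓ.1.2 hd)
  obtain ⟨Φ, hΦ⟩ := Act.exists_act_MS M S 𝒪 θ (MP S t P u M ε) (part_sgn_le ε _)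
    (fun c z hc h => saturated_MP (𝒪 := 𝒪) ε c hc z h)
    (fun ℓ x hx => by
      rw [hhop]
      exact heckeT_mem_MP hS hP ℓ.1.2 (fun hd => ℓ.2 (hS _ ℓ.1.2 hd)) hx)
    (fun ℓ => t ℓ.1) ht
    (fun ℓ x hx => by
      rw [hhop]
      exact (Num.mem_MP.mp hx).2.1 _ ℓ.1.2 ℓ.2)
    ⟨⟨ℓ₀, hℓ₀⟩, hℓ₀S⟩ hℓ₀M (by
      intro h
      rw [← ht] at h
      have h1 : residue 𝒪 (t ℓ₀ - (1 + ℓ₀)) = 0 := by
        rw [map_sub, map_add, map_one, map_natCast, sub_eq_zero]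
        exact h
      exact (IsLocalRing.mem_maximalIdeal _).mp ((residue_eq_zero_iff _).mp h1) hE)
  exact ⟨Φ, fun ℓ x => by rw [hΦ, hhop]⟩

/-- adjointness of the actions -/
theorem act_adjoint (hS : ∀ r : ℕ, r.Prime → r ∣ M → r ∈ S)
    {ε ε' : ℤ} {Φ : heckeLocal M S 𝒪 θ →ₐ[𝒪] Module.End 𝒪 (MP S t P u M ε)}
    {Φ' : heckeLocal M S 𝒪 θ →ₐ[𝒪] Module.End 𝒪 (MP S t P u M ε')}
    (hΦ : ∀ (ℓ : Idx S) (x : MP S t P u M ε),
        (Φ (heckeLocal.π M S 𝒪 θ (genS M S ℓ)) x : Pairs 𝒪) = heckeT (ℓ.1 : ℕ) x)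
    (hΦ' : ∀ (ℓ : Idx S) (x : MP S t P u M ε'),
        (Φ' (heckeLocal.π M S 𝒪 θ (genS M S ℓ)) x : Pairs 𝒪) = heckeT (ℓ.1 : ℕ) x)
    (τ : heckeLocal M S 𝒪 θ) : ∀ (x : MP S t P u M ε) (y : MP S t P u M ε'),
      brk M (Φ τ x : Pairs 𝒪) y = brk M x (Φ' τ y : Pairs 𝒪) := by
  have hM := NeZero.ne M
  have hx' : ∀ {ε : ℤ} (x : MP S t P u M ε), (x : Pairs 𝒪) ∈ MS (Gamma0 M) 𝒪 :=
    fun {ε} x => part_sgn_le ε _ x.2
  refine heckeLocal_induction M S 𝒪 θ (q := fun τ => ∀ (x : MP S t P u M ε)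
    (y : MP S t P u M ε'), brk M (Φ τ x : Pairs 𝒪) y = brk M x (Φ' τ y : Pairs 𝒪))
    ?_ ?_ ?_ ?_ τ
  · intro c x y
    rw [AlgHom.commutes, AlgHom.commutes, Module.algebraMap_end_apply,
      Module.algebraMap_end_apply, Submodule.coe_smul, Submodule.coe_smul,
      brk_smul_left hM _ (hx' x) (hx' y), brk_smul_right hM _ (hx' x) (hx' y)]
  · intro ℓ x y
    rw [hΦ, hΦ', brk_heckeT hM ℓ.1.2 (fun hd => ℓ.2 (hS _ ℓ.1.2 hd)) (hx' x) (hx' y)]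
  · intro σ τ h1 h2 x y
    rw [map_add, map_add, LinearMap.add_apply, LinearMap.add_apply, Submodule.coe_add,
      Submodule.coe_add, brk_add_left hM (hx' _) (hx' _) (hx' _),
      brk_add_right hM (hx' _) (hx' _) (hx' _), h1, h2]
  · intro σ τ h1 h2 x y
    rw [mul_comm σ τ, map_mul, mul_comm τ σ, map_mul, Module.End.mul_apply,
      Module.End.mul_apply, h2, h1]

/-- eigenvectors of the Hecke operators are eigenvectors of `heckeLocal` -/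
theorem act_eigen {ε : ℤ} {Φ : heckeLocal M S 𝒪 θ →ₐ[𝒪] Module.End 𝒪 (MP S t P u M ε)}
    (hΦ : ∀ (ℓ : Idx S) (x : MP S t P u M ε),
        (Φ (heckeLocal.π M S 𝒪 θ (genS M S ℓ)) x : Pairs 𝒪) = heckeT (ℓ.1 : ℕ) x)
    {a : ℕ → 𝒪} {μ : heckeLocal M S 𝒪 θ →ₐ[𝒪] 𝒪}
    (hμ : ∀ ℓ : Idx S, μ (heckeLocal.π M S 𝒪 θ (genS M S ℓ)) = a ℓ.1)
    {x : MP S t P u M ε} (hx : ∀ ℓ : Idx S, heckeT (ℓ.1 : ℕ) (x : Pairs 𝒪) = a ℓ.1 • (x : Pairs 𝒪))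
    (τ : heckeLocal M S 𝒪 θ) : Φ τ x = μ τ • x := by
  refine heckeLocal_induction M S 𝒪 θ (q := fun τ => Φ τ x = μ τ • x) ?_ ?_ ?_ ?_ τ
  · intro c
    rw [AlgHom.commutes, AlgHom.commutes, Module.algebraMap_end_apply]
    rfl
  · intro ℓ
    apply Subtype.ext
    rw [hΦ, hμ, Submodule.coe_smul, hx]
  · intro σ τ h1 h2
    rw [map_add, map_add, LinearMap.add_apply, h1, h2, add_smul]
  · intro σ τ h1 h2
    rw [map_mul, map_mul, Module.End.mul_apply, h2, map_smul, h1, smul_smul, mul_comm]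

end main

end Fermat.Agent.RT.Num
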