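import Fermat.Agent.RT.Wiring.HDatum

/-!
# Points of deformation rings are determined by Frobenius traces (team RT, helper41)
-/

set_option autoImplicit false

open Polynomial IsLocalRing

namespace Fermat.Agent.RT.Num

open Fermat.Agent.UDef Fermat.Agent.DefCond

local notation "Γℚ" => (AlgebraicClosure ℚ ≃ₐ[ℚ] AlgebraicClosure ℚ)

section span

theorem span_map {G k k' : Type*} [Field k] [Field k'] (i : k →+* k')
    (N : G → Matrix (Fin 2) (Fin 2) k) (h : Submodule.span k (Set.range N) = ⊤) :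
    Submodule.span k' (Set.range fun g => (N g).map i) = ⊤ := by
  have key : ∀ X : Matrix (Fin 2) (Fin 2) k,
      X.map i ∈ Submodule.span k' (Set.range fun g => (N g).map i) := by
    intro X
    have hX : X ∈ Submodule.span k (Set.range N) := by rw [h]; trivial
    induction hX using Submodule.span_induction with
    | mem X hX =>
      obtain ⟨g, rfl⟩ := hX
      exact Submodule.subset_span ⟨g, rfl⟩
    | zero =>
      have : (0 : Matrix (Fin 2) (Fin 2) k).map i = 0 := by ext a b; simp
      rw [this]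
      exact Submodule.zero_mem _
    | add X Y _ _ hX hY =>
      have : (X + Y).map i = X.map i + Y.map i := by ext a b; simp
      rw [this]
      exact Submodule.add_mem _ hX hY
    | smul c X _ hX =>
      have : (c • X).map i = i c • X.map i := by ext a b; simp
      rw [this]
      exact Submodule.smul_mem _ _ hX
  rw [eq_top_iff]
  intro X _
  rw [Matrix.matrix_eq_sum_single X]
  refine Submodule.sum_mem _ fun a _ => Submodule.sum_mem _ fun b _ => ?_
  have h1 : Matrix.single a b (X a b) = X a b • (Matrix.single a b (1 : k)).map i := by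
    ext c d
    simp only [Matrix.single, Matrix.of_apply, Matrix.smul_apply, Matrix.map_apply, smul_eq_mul]
    split_ifs <;> simp
  rw [h1]
  exact Submodule.smul_mem _ _ (key _)

theorem span_conj {G k : Type*} [Field k] {N N' : G → Matrix (Fin 2) (Fin 2) k}
    {P : Matrix (Fin 2) (Fin 2) k} (hP : IsUnit P) (h : ∀ g, P * N g = N' g * P)
    (hs : Submodule.span k (Set.range N) = ⊤) : Submodule.span k (Set.range N') = ⊤ := by
  obtain ⟨Q, hPQ, hQP⟩ := isUnit_iff_exists.mp hP
  have key : ∀ X : Matrix (Fin 2) (Fin 2) k, P * X * Q ∈ Submodule.span k (Set.range N') := by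
    intro X
    have hX : X ∈ Submodule.span k (Set.range N) := by rw [hs]; trivial
    induction hX using Submodule.span_induction with
    | mem X hX =>
      obtain ⟨g, rfl⟩ := hX
      refine Submodule.subset_span ⟨g, ?_⟩
      rw [h, mul_assoc, hPQ, mul_one]
    | zero => rw [mul_zero, zero_mul]; exact Submodule.zero_mem _
    | add X Y _ _ hX hY => rw [mul_add, add_mul]; exact Submodule.add_mem _ hX hY
    | smul c X _ hX =>
      rw [mul_smul_comm, smul_mul_assoc]
      exact Submodule.smul_mem _ _ hX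
  rw [eq_top_iff]
  intro X _
  have := key (Q * X * P)
  rwa [← mul_assoc, ← mul_assoc, hPQ, one_mul, mul_assoc, hPQ, mul_one] at this

end span

section

variable {𝒪 : Type} [CommRing 𝒪]

/-- algebra homomorphisms from a local algebra to a coefficient ring are local -/
theorem isLocalHom_algHom {R B : Type*} [CommRing R] [IsLocalRing R] [CommRing B] [IsLocalRing B]
    [Algebra 𝒪 R] [Algebra 𝒪 B] [IsLocalHom (algebraMap 𝒪 B)]
    (hB : Function.Surjective (residue B ∘ algebraMap 𝒪 B)) (f : R →ₐ[𝒪] B) :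
    IsLocalHom (f : R →+* B) := by
  refine ⟨fun x hx => ?_⟩
  by_contra hxn
  have hxm : x ∈ maximalIdeal R := (mem_maximalIdeal x).mpr hxn
  obtain ⟨c, hc⟩ := hB (residue B (f x))
  have hcu : IsUnit c := by
    by_contra hcn
    have h1 : algebraMap 𝒪 B c ∈ maximalIdeal B := by
      rw [mem_maximalIdeal, mem_nonunits_iff]
      intro h
      exact hcn (isUnit_of_map_unit (algebraMap 𝒪 B) c h)
    have h2 : residue B (f x) = 0 := by
      rw [← hc]
      exact (residue_eq_zero_iff _).mpr h1
    have h3 : f x ∈ maximalIdeal B := (residue_eq_zero_iff _).mp h2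
    exact (mem_maximalIdeal _).mp h3 hx
  have h4 : IsUnit (algebraMap 𝒪 R c - x) := by
    by_contra hn
    have h5 : algebraMap 𝒪 R c ∈ maximalIdeal R := by
      have := add_mem ((mem_maximalIdeal _).mpr hn) hxm
      rwa [sub_add_cancel] at this
    exact (mem_maximalIdeal _).mp h5 (hcu.map _)
  have h6 := h4.map f
  rw [map_sub, AlgHom.commutes] at h6
  have h7 : algebraMap 𝒪 B c - f x ∈ maximalIdeal B := by
    rw [← residue_eq_zero_iff, map_sub, sub_eq_zero]
    exact hc
  exact (mem_maximalIdeal _).mp h7 h6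

end

section

variable {𝒪 : Type} [CommRing 𝒪] [IsDomain 𝒪] [IsDiscreteValuationRing 𝒪]
  [IsAdicComplete (maximalIdeal 𝒪) 𝒪] {ρbar : ResidualGaloisRep (ResidueField 𝒪)}
  {𝒟 : ∀ ⦃A : Type⦄ [CommRing A] [IsLocalRing A] [Algebra 𝒪 A], GaloisRepAdic A → Prop}

/-- the universal representation is residually spanning -/
theorem resSpan_univ (D : GaloisRep.DeformationRingData 𝒪 ρbar 𝒟)
    {M : Γℚ →* Matrix (Fin 2) (Fin 2) D.R} (hM : IsModel D.ρ M) : ResSpan M := by
  obtain ⟨Mb, hMb⟩ := exists_modelR ρbar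
  have h1 := span_of_absIrr hMb D.absIrr
  have h2 := span_map (ResidueField.map (algebraMap 𝒪 D.R)) Mb h1
  obtain ⟨P, hP, hPM⟩ := (hMb.baseChangeAlong (ResidueField.map (algebraMap 𝒪 D.R))).exists_conj
    hM.residual (by
      obtain ⟨e⟩ := D.residual_isEquiv
      exact ⟨e.symm⟩)
  exact span_conj hP hPM h2

theorem resSpan_mapRep {A B : Type} [CommRing A] [IsLocalRing A] [CommRing B] [IsLocalRing B]
    {M : Γℚ →* Matrix (Fin 2) (Fin 2) A} (hM : ResSpan M) (f : A →+* B) [IsLocalHom f] :
    ResSpan (UDef.mapRep f M) := by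
  have h := span_map (ResidueField.map f) _ hM
  rw [ResSpan]
  rw [← h]
  congr 1

/-- **Points of a deformation ring are determined by their Frobenius polynomials.** -/
theorem algHom_eq_of_frob (D : GaloisRep.DeformationRingData 𝒪 ρbar 𝒟)
    (hbc : ∀ ⦃A B : Type⦄ [CommRing A] [IsLocalRing A] [Algebra 𝒪 A]
      [CommRing B] [IsLocalRing B] [Algebra 𝒪 B], IsCoeff 𝒪 A → IsCoeff 𝒪 B →
      ∀ (φ : A →ₐ[𝒪] B) (hφ : IsLocalHom (φ : A →+* B)) ⦃ρ : GaloisRepAdic A⦄,
        𝒟 ρ → 𝒟 (ρ.baseChangeAlong (φ : A →+* B) hφ))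
    {B : Type} [CommRing B] [IsLocalRing B] [IsNoetherianRing B]
    [IsAdicComplete (maximalIdeal B) B] [Algebra 𝒪 B] [IsLocalHom (algebraMap 𝒪 B)]
    (hB : Function.Surjective (residue B ∘ algebraMap 𝒪 B)) (f g : D.R →ₐ[𝒪] B) (S : Finset ℕ)
    (hF : ∀ ℓ : ℕ, ℓ.Prime → ℓ ∉ S → ∀ A : ValuationSubring (AlgebraicClosure ℚ),
      A.LiesOverPrime ℓ → ∀ σ : Γℚ, A.IsFrobeniusAt σ ℓ →
        (LinearMap.charpoly (D.ρ.ρ σ)).map (f : D.R →+* B) =
          (LinearMap.charpoly (D.ρ.ρ σ)).map (g : D.R →+* B)) : f = g := by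
  have hf := isLocalHom_algHom hB f
  have hg := isLocalHom_algHom hB g
  have hc₁ : IsCoeff 𝒪 D.R := ⟨inferInstance, D.residue_surjective, inferInstance⟩
  have hc₂ : IsCoeff 𝒪 B := ⟨inferInstance, hB, inferInstance⟩
  have hcp : ∀ σ : Γℚ, (LinearMap.charpoly (D.ρ.ρ σ)).map (f : D.R →+* B) =
          (LinearMap.charpoly (D.ρ.ρ σ)).map (g : D.R →+* B) :=
    FrobCompare.adic_charpoly_map_eq CMP.Density.frobDensity (f : D.R →+* B) (g : D.R →+* B)
      hf hg D.ρ D.ρ S hF
  obtain ⟨M, hM⟩ := exists_model D.ρ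
  have hMs := resSpan_univ D hM
  have htr : ∀ σ : Γℚ, (mapRep (g : D.R →+* B) M σ).trace = (mapRep (f : D.R →+* B) M σ).trace := by
    intro σ
    obtain ⟨b, hb⟩ := hM
    have h1 := hcp σ
    rw [← LinearMap.charpoly_toMatrix (D.ρ.ρ σ) b, hb, ← Matrix.charpoly_map,
      ← Matrix.charpoly_map] at h1
    have h2 := Matrix.trace_eq_neg_charpoly_nextCoeff ((M σ).map (f : D.R →+* B))
    have h3 := Matrix.trace_eq_neg_charpoly_nextCoeff ((M σ).map (g : D.R →+* B))
    rw [mapRep_apply, mapRep_apply, h2, h3]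
    rw [show (M σ).map ((f : D.R →+* B) : D.R → B) = (M σ).map (f : D.R →+* B) from rfl] at h1
    rw [h1]
  obtain ⟨P, hP, hPM⟩ := exists_conj_of_trace_eq (resSpan_mapRep hMs (g : D.R →+* B))
    (resSpan_mapRep hMs (f : D.R →+* B)) htr
  have he : (D.ρ.baseChangeAlong (g : D.R →+* B) hg).IsEquiv
      (D.ρ.baseChangeAlong (f : D.R →+* B) hf) :=
    (hM.baseChangeAlong _ hg).isEquiv (hM.baseChangeAlong _ hf) P hP hPM
  have hres : (D.ρ.baseChangeAlong (f : D.R →+* B) hf).residual.IsEquiv
      (ρbar.baseChangeAlong (ResidueField.map (algebraMap 𝒪 B))) := by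
    obtain ⟨Mb, hMb⟩ := exists_modelR ρbar
    obtain ⟨P, hP, hPM⟩ := hM.residual.exists_conj
      (hMb.baseChangeAlong (ResidueField.map (algebraMap 𝒪 D.R))) D.residual_isEquiv
    refine (hM.baseChangeAlong _ hf).residual.isEquiv
      (hMb.baseChangeAlong (ResidueField.map (algebraMap 𝒪 B)))
      (P.map (ResidueField.map (f : D.R →+* B))) ?_ ?_
    · exact hP.map ((ResidueField.map (f : D.R →+* B)).mapMatrix)
    · intro σ
      have h1 := congrArg (fun X : Matrix (Fin 2) (Fin 2) (ResidueField D.R) =>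
        X.map (ResidueField.map (f : D.R →+* B))) (hPM σ)
      simp only [Matrix.map_mul] at h1
      have e1 : (mapRep (residue D.R) M σ).map (ResidueField.map (f : D.R →+* B)) =
          mapRep (residue B) (mapRep (f : D.R →+* B) M) σ := by
        ext i j
        rfl
      have e2 : (mapRep (ResidueField.map (algebraMap 𝒪 D.R)) Mb σ).map
          (ResidueField.map (f : D.R →+* B)) =
          mapRep (ResidueField.map (algebraMap 𝒪 B)) Mb σ := by
        ext i j
        simp only [mapRep_apply, Matrix.map_apply]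
        have h5 : (f : D.R →+* B).comp (algebraMap 𝒪 D.R) = algebraMap 𝒪 B := by
          ext c
          exact AlgHom.commutes f c
        obtain ⟨c, hc⟩ := residue_surjective (Mb σ i j)
        rw [← hc, ResidueField.map_residue, ResidueField.map_residue, ResidueField.map_residue]
        congr 1
        exact AlgHom.commutes f c
      rw [e1, e2] at h1
      exact h1
  obtain ⟨φ, -, huniq⟩ := D.universal B hB (D.ρ.baseChangeAlong (f : D.R →+* B) hf)
    (hbc hc₁ hc₂ f hf D.isOfType) hres
  rw [huniq f ⟨hf, ⟨GaloisRepAdic.Equiv.refl _⟩⟩, huniq g ⟨hg, he⟩]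

end

end Fermat.Agent.RT.Num
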