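import Fermat.Agent.RT.FormO
import Fermat.Agent.RT.IharaInj

/-!
# Numerical assembly: the eigenvectors `e_Σ` (team RT, helper41)

`Vec M ε a u P x`: `x ∈ MS(Γ₀(M))^ε` is an eigenvector of all `T_ℓ` (`ℓ ∤ M`) with eigenvalues
`a ℓ`, of `U_r` (`r ∈ P`) with eigenvalues `u r`.

* `Vec.raise`, `Vec.raiseP`: level raising to `Mq²` and `Mp`;
* `exists_pair`: from a pair `(x, y)` at level `N` to a pair at level `N·e·∏q²` whose pairing is
  `∏ (q-1)((q+1)²-a_q²) · (A²-1)(2A-a_p)` times the original one, primitivity is preserved.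
-/

set_option autoImplicit false
set_option linter.unusedSectionVars false

open Matrix Matrix.SpecialLinearGroup CongruenceSubgroup IsLocalRing
open scoped MatrixGroups OnePoint

noncomputable section

namespace Fermat.Agent.RT.Num

open Fermat.Agent.LR Fermat.Agent.LR.PS Fermat.Agent.RT.Form

section vec

variable {𝒪 : Type*} [CommRing 𝒪]

/-- Eigenvectors in modular symbols. -/
structure Vec (M : ℕ) (ε : ℤ) (a u : ℕ → 𝒪) (P : Finset ℕ) (x : Pairs 𝒪) : Prop where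
  mem : x ∈ sgnMS 𝒪 ε (Gamma0 M)
  eigT : ∀ ℓ : ℕ, ℓ.Prime → ¬ ℓ ∣ M → heckeT ℓ x = a ℓ • x
  eigU : ∀ r ∈ P, heckeU r x = u r • x

theorem Vec.mem_MS {M : ℕ} {ε : ℤ} {a u : ℕ → 𝒪} {P : Finset ℕ} {x : Pairs 𝒪}
    (h : Vec M ε a u P x) : x ∈ MS (Gamma0 M) 𝒪 := (mem_sgnMS.mp h.mem).1

theorem Vec.sgn {M : ℕ} {ε : ℤ} {a u : ℕ → 𝒪} {P : Finset ℕ} {x : Pairs 𝒪}
    (h : Vec M ε a u P x) : slash jMat x = (ε : 𝒪) • x := (mem_sgnMS.mp h.mem).2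

/-- level raising to `M q²` -/
theorem Vec.raise {M q : ℕ} {ε : ℤ} {a u : ℕ → 𝒪} {P : Finset ℕ} {x : Pairs 𝒪}
    (h : Vec M ε a u P x) (hq : q.Prime) (hqM : ¬ q ∣ M) (hP : ∀ r ∈ P, r.Prime ∧ r ∣ M)
    (hu : u q = 0) : Vec (M * q ^ 2) ε a u (insert q P) (Form.raise q x) := by
  refine ⟨mem_sgnMS.mpr ⟨raise_mem hq hqM h.mem_MS, ?_⟩, fun ℓ hℓ hℓM => ?_, fun r hr => ?_⟩
  · rw [← raise_slash_jMat hq h.mem_MS, h.sgn, map_smul]
  · have h1 : ¬ ℓ ∣ M := fun hd => hℓM (Dvd.dvd.mul_right hd _)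
    have h2 : ℓ ≠ q := by
      rintro rfl
      exact hℓM (Dvd.dvd.mul_left (dvd_pow_self ℓ two_ne_zero) _)
    rw [heckeT_raise hq hqM hℓ h2 h.mem_MS, h.eigT ℓ hℓ h1, map_smul]
  · rcases Finset.mem_insert.mp hr with rfl | hr
    · rw [heckeU_raise hq hqM h.mem_MS, hu, zero_smul]
    · obtain ⟨hr1, hr2⟩ := hP r hr
      have h2 : r ≠ q := by
        rintro rfl
        exact hqM hr2
      rw [heckeU_raise_comm hq hqM hr1 h2 h.mem_MS, h.eigU r hr, map_smul]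

/-- level raising to `M p` -/
theorem Vec.raiseP {M p : ℕ} {ε : ℤ} {a u : ℕ → 𝒪} {P : Finset ℕ} {x : Pairs 𝒪}
    (h : Vec M ε a u P x) (hp : p.Prime) (hpM : ¬ p ∣ M) (hP : ∀ r ∈ P, r.Prime ∧ r ∣ M)
    (hu : u p ^ 2 - a p * u p + p = 0) :
    Vec (M * p) ε a u (insert p P) (u p • x - degen p x) := by
  have hT := TInv_of_mem h.mem_MS
  refine ⟨mem_sgnMS.mpr ⟨?_, ?_⟩, fun ℓ hℓ hℓM => ?_, fun r hr => ?_⟩
  · exact sub_mem (Submodule.smul_mem _ _ (MS_mono (Gamma0_mono (Dvd.intro _ rfl)) h.mem_MS))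
      (degen_mem hp.ne_zero h.mem_MS)
  · rw [map_sub, map_smul, ← degen_slash_jMat hp.ne_zero, h.sgn, map_smul, smul_sub, smul_comm]
  · have h1 : ¬ ℓ ∣ M := fun hd => hℓM (Dvd.dvd.mul_right hd _)
    have h2 : ℓ ≠ p := by
      rintro rfl
      exact hℓM (dvd_mul_left ℓ M)
    rw [map_sub, map_smul, heckeT_degen hℓ.ne_zero hp.ne_zero
      ((Nat.coprime_primes hp hℓ).mpr (Ne.symm h2)) hT, h.eigT ℓ hℓ h1, map_smul, smul_sub,
      smul_comm]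
  · rcases Finset.mem_insert.mp hr with rfl | hr
    · have h1 : heckeU r x = a r • x - degen r x := by
        rw [← h.eigT r hp hpM, heckeT_apply, add_sub_cancel_right]
      rw [map_sub, map_smul, h1, heckeU_degen_self hp.ne_zero hT]
      have h2 : (r : 𝒪) = a r * u r - u r ^ 2 := by linear_combination hu
      rw [h2]
      module
    · obtain ⟨hr1, hr2⟩ := hP r hr
      have h2 : r ≠ p := by
        rintro rfl
        exact hpM hr2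
      rw [map_sub, map_smul, heckeU_degen hr1.ne_zero hp.ne_zero
        ((Nat.coprime_primes hp hr1).mpr (Ne.symm h2)) hT, h.eigU r hr, map_smul, smul_sub,
        smul_comm]

end vec

section prim

variable {𝒪 : Type*} [CommRing 𝒪] [IsDomain 𝒪] [IsDiscreteValuationRing 𝒪]

/-- Primitive modular symbols. -/
def Prim (x : Pairs 𝒪) : Prop := ∀ c ∈ maximalIdeal 𝒪, ∀ z : Pairs 𝒪, x ≠ c • z

theorem Prim.ne_zero {x : Pairs 𝒪} (h : Prim x) : x ≠ 0 := by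
  rintro rfl
  exact h 0 (zero_mem _) 0 (by simp)

theorem prim_iff {ϖ : 𝒪} (hϖ : Irreducible ϖ) {x : Pairs 𝒪} :
    Prim x ↔ ∀ z : Pairs 𝒪, x ≠ ϖ • z := by
  constructor
  · intro h z
    exact h ϖ (by rw [hϖ.maximalIdeal_eq]; exact Ideal.mem_span_singleton_self ϖ) z
  · intro h c hc z hz
    rw [hϖ.maximalIdeal_eq, Ideal.mem_span_singleton] at hc
    obtain ⟨d, rfl⟩ := hc
    exact h (d • z) (by rw [hz, mul_smul])

/-- a primitive symbol has a unit value -/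
theorem Prim.exists_isUnit {x : Pairs 𝒪} (h : Prim x) : ∃ s t : Cusp, IsUnit (x s t) := by
  obtain ⟨ϖ, hϖ⟩ := IsDiscreteValuationRing.exists_irreducible 𝒪
  by_contra hcon
  push Not at hcon
  have h1 : ∀ s t, ∃ z, x s t = ϖ * z := by
    intro s t
    have h2 : x s t ∈ maximalIdeal 𝒪 := (IsLocalRing.mem_maximalIdeal _).mpr (hcon s t)
    rw [hϖ.maximalIdeal_eq, Ideal.mem_span_singleton] at h2
    exact h2
  choose z hz using h1
  exact (prim_iff hϖ).mp h z (by funext s t; exact hz s t)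

theorem mem_nilSub_eig {T : Module.End 𝒪 (Pairs 𝒪)} {c : 𝒪} {x : Pairs 𝒪} (h : T x = c • x) :
    x ∈ nilSub (T - c • LinearMap.id) := by
  intro d _
  refine ⟨1, 0, ?_⟩
  rw [pow_one, LinearMap.sub_apply, LinearMap.smul_apply, LinearMap.id_apply, h, sub_self,
    smul_zero]

/-- The hypothesis on the eigensystem used for Ihara's lemma. -/
def GoodSys (p : ℕ) (a : ℕ → 𝒪) : Prop :=
  ∀ M q : ℕ, M ≠ 0 → q.Prime → ∃ ℓ, IharaInj.Good M q p ℓ ∧ ¬ ℓ ∣ M ∧ IsUnit (2 - a ℓ)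

theorem Vec.prim_raise {p : ℕ} (hp : p.Prime) (hp𝒪 : (p : 𝒪) ∈ maximalIdeal 𝒪) {a u : ℕ → 𝒪}
    (hg : GoodSys p a) {M q : ℕ} {ε : ℤ} {P : Finset ℕ} {x : Pairs 𝒪}
    (h : Vec M ε a u P x) (hM : M ≠ 0) (hq : q.Prime) (hqM : ¬ q ∣ M) (hqp : q ≠ p)
    (hx : Prim x) : Prim (Form.raise q x) := by
  obtain ⟨ϖ, hϖ⟩ := IsDiscreteValuationRing.exists_irreducible 𝒪
  obtain ⟨ℓ, hℓ, hℓM, hu⟩ := hg M q hM hq
  rw [prim_iff hϖ] at hx ⊢
  intro z hz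
  have hπ : ∀ c : 𝒪, residue 𝒪 c = 0 ↔ ϖ ∣ c := by
    intro c
    rw [residue_eq_zero_iff, hϖ.maximalIdeal_eq, Ideal.mem_span_singleton]
  have hpk : (p : ResidueField 𝒪) = 0 := by
    rw [← map_natCast (residue 𝒪), residue_eq_zero_iff]
    exact hp𝒪
  have hqk : IsUnit (q : ResidueField 𝒪) := by
    have hcop : IsCoprime (q : ℤ) (p : ℤ) :=
      Nat.isCoprime_iff_coprime.mpr ((Nat.coprime_primes hq hp).mpr hqp)
    have h2 := hcop.map (Int.castRingHom (ResidueField 𝒪))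
    simp only [map_natCast, hpk] at h2
    exact isCoprime_zero_right.mp h2
  obtain ⟨w, hw⟩ := IharaInj.raise_injective_mod (π := residue 𝒪) hϖ.ne_zero hπ hM hq hqM hp hpk
    hqk hℓ (F := {(heckeT ℓ - a ℓ • LinearMap.id : Module.End 𝒪 (Pairs 𝒪))}) (t := a ℓ)
    (Set.mem_singleton _) (by
      have := hu.map (residue 𝒪)
      rwa [map_sub, map_ofNat] at this)
    (mem_part.mpr ⟨h.mem_MS, by
      rintro T rfl
      exact mem_nilSub_eig (h.eigT ℓ hℓ.1 hℓM)⟩) ⟨z, hz⟩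
  exact hx w hw

theorem Vec.prim_raiseP {p : ℕ} (hp : p.Prime) (hp𝒪 : (p : 𝒪) ∈ maximalIdeal 𝒪) {a u : ℕ → 𝒪}
    (hg : GoodSys p a) {M : ℕ} {ε : ℤ} {P : Finset ℕ} {x : Pairs 𝒪}
    (h : Vec M ε a u P x) (hM : M ≠ 0) (hpM : ¬ p ∣ M) (c : 𝒪)
    (hx : Prim x) : Prim (c • x - degen p x) := by
  obtain ⟨ϖ, hϖ⟩ := IsDiscreteValuationRing.exists_irreducible 𝒪
  obtain ⟨ℓ, hℓ, hℓM, hu⟩ := hg M p hM hp
  rw [prim_iff hϖ] at hx ⊢
  intro z hz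
  have hπ : ∀ c : 𝒪, residue 𝒪 c = 0 ↔ ϖ ∣ c := by
    intro c
    rw [residue_eq_zero_iff, hϖ.maximalIdeal_eq, Ideal.mem_span_singleton]
  have hpk : (p : ResidueField 𝒪) = 0 := by
    rw [← map_natCast (residue 𝒪), residue_eq_zero_iff]
    exact hp𝒪
  obtain ⟨w, hw⟩ := IharaInj.degen_injective_mod (π := residue 𝒪) hϖ.ne_zero hπ hM hp hpM hp hpk
    hℓ (F := {(heckeT ℓ - a ℓ • LinearMap.id : Module.End 𝒪 (Pairs 𝒪))}) (t := a ℓ)
    (Set.mem_singleton _) (by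
      have := hu.map (residue 𝒪)
      rwa [map_sub, map_ofNat] at this)
    (mem_part.mpr ⟨h.mem_MS, by
      rintro T rfl
      exact mem_nilSub_eig (h.eigT ℓ hℓ.1 hℓM)⟩) (Submodule.smul_mem _ c h.mem_MS) ⟨z, hz⟩
  exact hx w hw

/-! ### pairings -/

variable [CharZero 𝒪]

theorem Vec.brk_raise {M q : ℕ} {ε ε' : ℤ} {a u : ℕ → 𝒪} {P P' : Finset ℕ} {x y : Pairs 𝒪}
    (h : Vec M ε a u P x) (h' : Vec M ε' a u P' y) (hM : M ≠ 0) (hq : q.Prime) (hqM : ¬ q ∣ M) :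
    brk (M * q ^ 2) (Form.raise q x) (Form.raise q y) =
      (((q : 𝒪) - 1) * ((q + 1) ^ 2 - a q ^ 2)) * brk M x y := by
  rw [Form.brk_raise hM hq hqM h.mem_MS h'.mem_MS]
  have h1 : ((q : 𝒪) + 1) ^ 2 • x - heckeT q (heckeT q x) = (((q : 𝒪) + 1) ^ 2 - a q ^ 2) • x := by
    rw [h.eigT q hq hqM, map_smul, h.eigT q hq hqM, smul_smul, sub_smul, sq (a q)]
  rw [h1, brk_smul_left hM _ h.mem_MS h'.mem_MS]
  ring

theorem Vec.brk_raiseP {M p : ℕ} {ε ε' : ℤ} {a u : ℕ → 𝒪} {P P' : Finset ℕ} {x y : Pairs 𝒪}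
    (h : Vec M ε a u P x) (h' : Vec M ε' a u P' y) (hM : M ≠ 0) (hp : p.Prime) (hpM : ¬ p ∣ M)
    {A : 𝒪} (hA : A ^ 2 - a p * A + p = 0) :
    brk (M * p) (A • x - degen p x) (A • y - degen p y) =
      ((A ^ 2 - 1) * (2 * A - a p)) * brk M x y := by
  rw [Form.brk_raiseP hM hp hpM h.mem_MS h'.mem_MS (Submodule.smul_mem _ A h.mem_MS)
    (Submodule.smul_mem _ A h'.mem_MS), map_smul, h.eigT p hp hpM, smul_smul,
    brk_smul_left hM _ h.mem_MS (Submodule.smul_mem _ A h'.mem_MS),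
    brk_smul_right hM _ h.mem_MS h'.mem_MS, brk_smul_left hM _ h.mem_MS h'.mem_MS,
    brk_smul_left hM _ h.mem_MS h'.mem_MS]
  linear_combination (-2 * A) * (brk M x y) * hA

/-- **Level raising of a pair of eigenvectors.** -/
theorem exists_pair {p : ℕ} (hp : p.Prime) (hp𝒪 : (p : 𝒪) ∈ maximalIdeal 𝒪) {a u : ℕ → 𝒪}
    (hg : GoodSys p a) {N : ℕ} (hN : N ≠ 0) {P : Finset ℕ} (hP : ∀ r ∈ P, r.Prime ∧ r ∣ N)
    {x y : Pairs 𝒪} (hx : Vec N 1 a u P x) (hy : Vec N (-1) a u P y) (hxp : Prim x)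
    (hyp : Prim y) (Q : Finset ℕ) (hQ : ∀ q ∈ Q, q.Prime ∧ ¬ q ∣ N ∧ q ≠ p ∧ u q = 0) :
    ∃ x' y' : Pairs 𝒪, Vec (N * ∏ q ∈ Q, q ^ 2) 1 a u (P ∪ Q) x' ∧
      Vec (N * ∏ q ∈ Q, q ^ 2) (-1) a u (P ∪ Q) y' ∧ Prim x' ∧ Prim y' ∧
      brk (N * ∏ q ∈ Q, q ^ 2) x' y' =
        (∏ q ∈ Q, (((q : 𝒪) - 1) * ((q + 1) ^ 2 - a q ^ 2))) * brk N x y := by
  induction Q using Finset.induction_on with
  | empty =>
    refine ⟨x, y, ?_, ?_, hxp, hyp, ?_⟩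
    · simpa using hx
    · simpa using hy
    · simp
  | insert q Q hqQ ih =>
    obtain ⟨x', y', hx', hy', hxp', hyp', hb⟩ :=
      ih fun r hr => hQ r (Finset.mem_insert_of_mem hr)
    obtain ⟨hq, hqN, hqp, huq⟩ := hQ q (Finset.mem_insert_self _ _)
    have hQ' : ∀ r ∈ Q, r.Prime := fun r hr => (hQ r (Finset.mem_insert_of_mem hr)).1
    set M := N * ∏ q ∈ Q, q ^ 2 with hMdef
    have hM : M ≠ 0 := mul_ne_zero hN
      (Finset.prod_ne_zero_iff.mpr fun r hr => pow_ne_zero _ (hQ' r hr).ne_zero)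
    have hqM : ¬ q ∣ M := by
      intro hd
      rcases (Nat.Prime.dvd_mul hq).mp hd with h1 | h1
      · exact hqN h1
      · rw [Prime.dvd_finsetProd_iff hq.prime] at h1
        obtain ⟨r, hr, h2⟩ := h1
        have h3 := (Nat.prime_dvd_prime_iff_eq hq (hQ' r hr)).mp (hq.dvd_of_dvd_pow h2)
        exact hqQ (h3 ▸ hr)
    have hlev : N * ∏ q ∈ insert q Q, q ^ 2 = M * q ^ 2 := by
      rw [Finset.prod_insert hqQ, hMdef]
      ring
    have hPQ : P ∪ insert q Q = insert q (P ∪ Q) := Finset.union_insert q P Q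
    have hPM : ∀ r ∈ P ∪ Q, r.Prime ∧ r ∣ M := by
      intro r hr
      rcases Finset.mem_union.mp hr with h1 | h1
      · exact ⟨(hP r h1).1, Dvd.dvd.mul_right (hP r h1).2 _⟩
      · refine ⟨hQ' r h1, Dvd.dvd.mul_left ?_ _⟩
        exact (dvd_pow_self r two_ne_zero).trans (Finset.dvd_prod_of_mem (fun q => q ^ 2) h1)
    rw [hlev, hPQ, Finset.prod_insert hqQ]
    refine ⟨Form.raise q x', Form.raise q y', hx'.raise hq hqM hPM huq,
      hy'.raise hq hqM hPM huq, hx'.prim_raise hp hp𝒪 hg hM hq hqM hqp hxp',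
      hy'.prim_raise hp hp𝒪 hg hM hq hqM hqp hyp', ?_⟩
    rw [hx'.brk_raise hy' hM hq hqM, hb]
    ring

/-- **Level raising of a pair of eigenvectors**, with a step at `p`. -/
theorem exists_pairP {p : ℕ} (hp : p.Prime) (hp𝒪 : (p : 𝒪) ∈ maximalIdeal 𝒪) {a u : ℕ → 𝒪}
    (hg : GoodSys p a) {N : ℕ} (hN : N ≠ 0) (hpN : ¬ p ∣ N) {P : Finset ℕ}
    (hP : ∀ r ∈ P, r.Prime ∧ r ∣ N)
    {x y : Pairs 𝒪} (hx : Vec N 1 a u P x) (hy : Vec N (-1) a u P y) (hxp : Prim x)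
    (hyp : Prim y) (Q : Finset ℕ) (hQ : ∀ q ∈ Q, q.Prime ∧ ¬ q ∣ N ∧ q ≠ p ∧ u q = 0)
    (hu : u p ^ 2 - a p * u p + p = 0) :
    ∃ x' y' : Pairs 𝒪, Vec (N * p * ∏ q ∈ Q, q ^ 2) 1 a u (insert p P ∪ Q) x' ∧
      Vec (N * p * ∏ q ∈ Q, q ^ 2) (-1) a u (insert p P ∪ Q) y' ∧ Prim x' ∧ Prim y' ∧
      brk (N * p * ∏ q ∈ Q, q ^ 2) x' y' =
        (∏ q ∈ Q, (((q : 𝒪) - 1) * ((q + 1) ^ 2 - a q ^ 2))) *
          (((u p ^ 2 - 1) * (2 * u p - a p)) * brk N x y) := by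
  have hNp : N * p ≠ 0 := mul_ne_zero hN hp.ne_zero
  have hP' : ∀ r ∈ insert p P, r.Prime ∧ r ∣ N * p := by
    intro r hr
    rcases Finset.mem_insert.mp hr with rfl | hr
    · exact ⟨hp, dvd_mul_left _ _⟩
    · exact ⟨(hP r hr).1, Dvd.dvd.mul_right (hP r hr).2 _⟩
  have hQ' : ∀ q ∈ Q, q.Prime ∧ ¬ q ∣ N * p ∧ q ≠ p ∧ u q = 0 := by
    intro q hq
    obtain ⟨h1, h2, h3, h4⟩ := hQ q hq
    refine ⟨h1, fun hd => ?_, h3, h4⟩
    rcases (Nat.Prime.dvd_mul h1).mp hd with h5 | h5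
    · exact h2 h5
    · exact h3 ((Nat.prime_dvd_prime_iff_eq h1 hp).mp h5)
  rw [← hx.brk_raiseP hy hN hp hpN hu]
  exact exists_pair hp hp𝒪 hg hNp hP' (hx.raiseP hp hpN hP hu) (hy.raiseP hp hpN hP hu)
    (hx.prim_raiseP hp hp𝒪 hg hN hpN _ hxp) (hy.prim_raiseP hp hp𝒪 hg hN hpN _ hyp) Q hQ'

end prim

end Fermat.Agent.RT.Num
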